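import Fermat.Agent.LT.Adelic.Space
import Fermat.Agent.LT.Poisson.Lattice
import Mathlib.RingTheory.Trace.Basic

/-!
# The additive character of the finite adeles

`psiFin (x + t) = exp (-2πi Tr x)` for `x : K` and `t` integral.
-/

set_option autoImplicit false

noncomputable section

namespace Fermat.Agent.LT.Adelic

open IsDedekindDomain NumberField
open scoped Real

variable {K : Type*} [Field K] [NumberField K]

theorem exists_trace_eq_int_of_mem_intAdele {x : K}
    (hx : algebraMap K (FiniteAdeleRing (𝓞 K) K) x ∈ intAdele (𝓞 K) K) :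
    ∃ n : ℤ, Algebra.trace ℚ K x = n := by
  obtain ⟨r, rfl⟩ := HeightOneSpectrum.mem_integers_of_valuation_le_one K x fun v => by
    have := mem_intAdele.mp hx v
    rwa [valued_algebraMap] at this
  obtain ⟨n, hn⟩ := IsIntegrallyClosed.isIntegral_iff.mp
    (Algebra.isIntegral_trace (R := ℤ) (L := ℚ) (x := (algebraMap (𝓞 K) K r)) r.2)
  exact ⟨n, by rw [← hn]; simp⟩

/-- Two `K`-approximations of an adele have the same phase. -/
theorem eC_trace_eq_of_sub_mem {a : FiniteAdeleRing (𝓞 K) K} {x x' : K}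
    (h : a - algebraMap K _ x ∈ intAdele (𝓞 K) K) (h' : a - algebraMap K _ x' ∈ intAdele (𝓞 K) K) :
    Poisson.eC (-((Algebra.trace ℚ K x : ℚ) : ℝ)) =
      Poisson.eC (-((Algebra.trace ℚ K x' : ℚ) : ℝ)) := by
  obtain ⟨n, hn⟩ := exists_trace_eq_int_of_mem_intAdele (x := x' - x) (by
    rw [map_sub]
    convert (intAdele (𝓞 K) K).sub_mem h h' using 1
    abel)
  have hn' : ((Algebra.trace ℚ K x' : ℚ) : ℝ) = ((Algebra.trace ℚ K x : ℚ) : ℝ) + (n : ℝ) := by
    rw [map_sub, sub_eq_iff_eq_add'] at hn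
    rw [hn, Rat.cast_add, Rat.cast_intCast]
  rw [hn', neg_add, Poisson.eC_add]
  have h1 : Poisson.eC (-(n : ℝ)) = 1 := Complex.exp_eq_one_iff.mpr ⟨-n, by push_cast; ring⟩
  rw [h1, mul_one]

theorem exists_sub_mem_intAdele (a : FiniteAdeleRing (𝓞 K) K) :
    ∃ x : K, a - algebraMap K _ x ∈ intAdele (𝓞 K) K :=
  (exists_memMul_sub a one_ne_zero).imp fun _ => memMul_one_iff.mp

/-- The finite additive character: `exp (-2πi Tr x)` on `K`, trivial on the integral adeles. -/
def psiFin : AddChar (FiniteAdeleRing (𝓞 K) K) ℂ where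
  toFun a := Poisson.eC (-((Algebra.trace ℚ K (exists_sub_mem_intAdele a).choose : ℚ) : ℝ))
  map_zero_eq_one' := by
    rw [eC_trace_eq_of_sub_mem (exists_sub_mem_intAdele 0).choose_spec (x' := 0)
      (by simp [(intAdele (𝓞 K) K).zero_mem])]
    simp
  map_add_eq_mul' a b := by
    rw [eC_trace_eq_of_sub_mem (exists_sub_mem_intAdele (a + b)).choose_spec
      (x' := (exists_sub_mem_intAdele a).choose + (exists_sub_mem_intAdele b).choose) (by
        convert (intAdele (𝓞 K) K).add_mem (exists_sub_mem_intAdele a).choose_spec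
          (exists_sub_mem_intAdele b).choose_spec using 1
        rw [map_add]; abel), ← Poisson.eC_add, map_add, Rat.cast_add, neg_add]

/-- The character at an adele with a given approximation in `K`. -/
theorem psiFin_eq_of_sub_mem {a : FiniteAdeleRing (𝓞 K) K} {x : K}
    (h : a - algebraMap K _ x ∈ intAdele (𝓞 K) K) :
    psiFin a = Poisson.eC (-((Algebra.trace ℚ K x : ℚ) : ℝ)) :=
  eC_trace_eq_of_sub_mem (exists_sub_mem_intAdele a).choose_spec h

theorem psiFin_algebraMap (x : K) :
    psiFin (algebraMap K (FiniteAdeleRing (𝓞 K) K) x) =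
      Poisson.eC (-((Algebra.trace ℚ K x : ℚ) : ℝ)) :=
  psiFin_eq_of_sub_mem (by simp [(intAdele (𝓞 K) K).zero_mem])

theorem psiFin_of_mem_intAdele {t : FiniteAdeleRing (𝓞 K) K} (ht : t ∈ intAdele (𝓞 K) K) :
    psiFin t = 1 := by
  rw [psiFin_eq_of_sub_mem (x := 0) (by simpa using ht)]
  simp

end Fermat.Agent.LT.Adelic

end
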