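import Fermat.Agent.LT.Whittaker.Expansion
import Fermat.Agent.LT.Whittaker.Psi

/-!
# Equivariance of Whittaker expansions and the finite additive character
-/

set_option autoImplicit false

noncomputable section

namespace Fermat.Agent.LT.Adelic

open NumberField IsDedekindDomain Matrix
open scoped Real

variable {K : Type*} [Field K] [NumberField K] {ι : Type*} [Fintype ι]
  {Φ : Frame K ι} {U : Subgroup (GfK K)} {φ : Space Φ U → ℂ} {y : Yf U}

theorem isIntegral_natCast_mul {x : K} (M : ℕ) (hx : IsIntegral ℤ x) :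
    IsIntegral ℤ ((M : K) * x) :=
  (map_natCast (algebraMap ℤ K) M ▸ isIntegral_algebraMap (x := (M : ℤ))).mul hx

theorem exists_natCast_mul_isIntegral (a : K) : ∃ n : ℕ, n ≠ 0 ∧ IsIntegral ℤ ((n : K) * a) := by
  obtain ⟨x, hx⟩ := IsIntegral.exists_multiple_integral_of_isLocalization (nonZeroDivisors ℤ) a
    (Algebra.IsIntegral.isIntegral (R := ℚ) _)
  rw [Submonoid.smul_def, zsmul_eq_mul] at hx
  refine ⟨(x : ℤ).natAbs, Int.natAbs_ne_zero.mpr (nonZeroDivisors.coe_ne_zero x), ?_⟩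
  rcases Int.natAbs_eq (x : ℤ) with h | h
  · rwa [h, Int.cast_natCast] at hx
  · rw [h, Int.cast_neg, Int.cast_natCast, neg_mul] at hx
    simpa using hx.neg

theorem toInf_diag2 (a : Kˣ) (i : ι) :
    Φ.toInf i (diag2 a 1) = diag2 (Units.map (Φ.emb i).toMonoidHom a) 1 := by
  apply GL.ext_fin_two
  ext j l; fin_cases j <;> fin_cases l <;> simp [Frame.toInf]

theorem diag2_one_smul_hspace (a : ℂˣ) (p : HSpace) :
    (diag2 a 1 : GL (Fin 2) ℂ) • p =
      ⟨a * p.z, ‖(a : ℂ)‖ * p.r, mul_pos (norm_pos_iff.mpr a.ne_zero) p.r_pos⟩ := by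
  refine HSpace.ext ?_ ?_
  · simp [HSpace.smul_z, HSpace.denSq]
  · simp [HSpace.smul_r, HSpace.denSq, HSpace.absDet, Matrix.det_fin_two]

/-- Translation by `diag(a, 1)`. -/
theorem IsWhittakerAt.comp_diag (hinv : IsInvariant φ) (a : Kˣ) {c' : K → ℂ}
    (h : IsWhittakerAt φ (toGf K (diag2 a 1) • y) c') :
    IsWhittakerAt φ y fun β => c' (β * ((a⁻¹ : Kˣ) : K)) * ((∏ i, ‖Φ.emb i (a : K)‖ : ℝ) : ℂ) where
  zero := by simp [h.zero]
  support := by
    obtain ⟨M, hM, hs⟩ := h.support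
    obtain ⟨n, hn, hna⟩ := exists_natCast_mul_isIntegral (a : K)
    refine ⟨M * n, mul_ne_zero hM hn, fun β hβ => ?_⟩
    have h2 := (hs _ (left_ne_zero_of_mul hβ)).mul hna
    convert! h2 using 1
    push_cast
    field_simp [a.ne_zero]
  hasSum τ := by
    have h1 := h.hasSum (fun i => Φ.toInf i (diag2 a 1) • τ i)
    rw [← Space.smul_mk, hinv] at h1
    rw [← (Equiv.mulRight₀ (a : K) a.ne_zero).hasSum_iff]
    refine h1.congr_fun fun α => ?_
    simp only [Function.comp_apply, Equiv.mulRight₀_apply, Units.val_inv_eq_inv_val,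
      mul_inv_cancel_right₀ a.ne_zero, toInf_diag2, diag2_one_smul_hspace, whit, whitPhase,
      Units.coe_map, RingHom.toMonoidHom_eq_coe, MonoidHom.coe_coe, map_mul]
    have hh : whitHeight Φ (α * (a : K)) (fun i => (τ i).r) * ∏ i, ‖Φ.emb i (a : K)‖ =
        whitHeight Φ α fun i => ‖Φ.emb i (a : K)‖ * (τ i).r := by
      rw [whitHeight, whitHeight, ← Finset.prod_mul_distrib]
      refine Finset.prod_congr rfl fun i _ => ?_
      rw [map_mul, norm_mul, show 4 * π * (‖Φ.emb i α‖ * ‖Φ.emb i (a : K)‖) * (τ i).r =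
        4 * π * ‖Φ.emb i α‖ * (‖Φ.emb i (a : K)‖ * (τ i).r) by ring]
      ring
    rw [← hh]
    simp only [mul_assoc]
    push_cast
    ring

/-- Translation by a global unipotent. -/
theorem IsWhittakerAt.comp_unipotent (hinv : IsInvariant φ) (x : K) {c' : K → ℂ}
    (h : IsWhittakerAt φ (toGf K (unipotent x) • y) c') :
    IsWhittakerAt φ y fun α =>
      c' α * Poisson.eC ((Algebra.trace ℚ K (α * x) : ℚ) : ℝ) where
  zero := by simp [h.zero]
  support := by
    obtain ⟨M, hM, hs⟩ := h.support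
    exact ⟨M, hM, fun α hα => hs α (left_ne_zero_of_mul hα)⟩
  hasSum τ := by
    have h1 := h.hasSum (fun i => ⟨(τ i).z + Φ.emb i x, (τ i).r, (τ i).r_pos⟩)
    rw [← smul_mk_unipotent, hinv] at h1
    refine h1.congr_fun fun α => ?_
    simp only [whit]
    rw [show (fun i => (τ i).z + Φ.emb i x) = (fun i => (τ i).z) + fun i => Φ.emb i x from rfl,
      whitPhase_add, Poisson.eC_add, whitPhase_emb]
    ring

/-- The finite additive character: `exp (-2πi Tr x)` on `K`, trivial on the integral adeles. -/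
abbrev psiF : AddChar (FiniteAdeleRing (𝓞 K) K) ℂ := psiFin

theorem psiF_apply_of_sub_mem {t : FiniteAdeleRing (𝓞 K) K} {x : K}
    (h : t - algebraMap K (FiniteAdeleRing (𝓞 K) K) x ∈ intAdele (𝓞 K) K) :
    psiF t = Poisson.eC (-((Algebra.trace ℚ K x : ℚ) : ℝ)) := psiFin_eq_of_sub_mem h

theorem psiF_algebraMap (x : K) :
    psiF (algebraMap K (FiniteAdeleRing (𝓞 K) K) x) =
      Poisson.eC (-((Algebra.trace ℚ K x : ℚ) : ℝ)) :=
  psiFin_algebraMap x

theorem psiF_of_mem_intAdele {t : FiniteAdeleRing (𝓞 K) K} (ht : t ∈ intAdele (𝓞 K) K) :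
    psiF t = 1 :=
  psiFin_of_mem_intAdele ht

end Fermat.Agent.LT.Adelic

end
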