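import Fermat.Agent.LT.Adelic.Space
import Fermat.Agent.LT.Theta.Bessel
import Fermat.Agent.LT.Poisson.Lattice

/-!
# Whittaker expansions of spherical functions

`whit Φ α τ = (∏ rᵢ K₀(4π|αᵢ| rᵢ)) e(∑ 2 Re(αᵢ zᵢ))`; an expansion at a finite coordinate `y` is a
family of coefficients indexed by `K`, supported in a lattice, vanishing at `0`.
-/

set_option autoImplicit false

noncomputable section

namespace Fermat.Agent.LT.Adelic

open NumberField
open scoped Real

variable {K : Type*} [Field K] [NumberField K] {ι : Type*} [Fintype ι]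

/-- The height factor of the Whittaker function. -/
def whitHeight (Φ : Frame K ι) (α : K) (r : ι → ℝ) : ℝ :=
  ∏ i, r i * Theta.besselK0 (4 * π * ‖Φ.emb i α‖ * r i)

/-- The phase `∑ 2 Re (αᵢ zᵢ)`. -/
def whitPhase (Φ : Frame K ι) (α : K) (z : ι → ℂ) : ℝ := 2 * ∑ i, (Φ.emb i α * z i).re

/-- The spherical Whittaker function with parameter `0` at the frequency `α`. -/
def whit (Φ : Frame K ι) (α : K) (τ : ι → HSpace) : ℂ :=
  (whitHeight Φ α fun i => (τ i).r : ℂ) * Poisson.eC (whitPhase Φ α fun i => (τ i).z)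

variable {Φ : Frame K ι} {U : Subgroup (GfK K)}

/-- `c` is the Whittaker expansion of `φ` at the finite coordinate `y`. -/
structure IsWhittakerAt (φ : Space Φ U → ℂ) (y : Yf U) (c : K → ℂ) : Prop where
  zero : c 0 = 0
  support : ∃ M : ℕ, M ≠ 0 ∧ ∀ α, c α ≠ 0 → IsIntegral ℤ ((M : K) * α)
  hasSum : ∀ τ : ι → HSpace, HasSum (fun α => c α * whit Φ α τ) (φ (Space.mk τ y))

open Classical in
/-- The Whittaker coefficients (zero if there is no expansion). -/
def whitCoeff (φ : Space Φ U → ℂ) (y : Yf U) : K → ℂ :=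
  if h : ∃ c, IsWhittakerAt φ y c then h.choose else 0

theorem whitPhase_add (α : K) (z w : ι → ℂ) :
    whitPhase Φ α (z + w) = whitPhase Φ α z + whitPhase Φ α w := by
  simp only [whitPhase, Pi.add_apply, mul_add, Complex.add_re, Finset.sum_add_distrib]

theorem norm_eC (t : ℝ) : ‖Poisson.eC t‖ = 1 := by
  rw [Poisson.eC, show (2 : ℂ) * π * Complex.I * t = ((2 * π * t : ℝ) : ℂ) * Complex.I by
    push_cast; ring, Complex.norm_exp_ofReal_mul_I]

theorem whitHeight_nonneg (α : K) {r : ι → ℝ} (hr : ∀ i, 0 ≤ r i) : 0 ≤ whitHeight Φ α r :=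
  Finset.prod_nonneg fun i _ => mul_nonneg (hr i) (Theta.besselK0_nonneg _)

theorem whitHeight_pos {α : K} (hα : α ≠ 0) {r : ι → ℝ} (hr : ∀ i, 0 < r i) :
    0 < whitHeight Φ α r :=
  Finset.prod_pos fun i _ => mul_pos (hr i) (Theta.besselK0_pos (by
    have : 0 < ‖Φ.emb i α‖ := norm_pos_iff.mpr (by simpa using hα)
    have := hr i
    positivity))

theorem norm_whit (α : K) (τ : ι → HSpace) :
    ‖whit Φ α τ‖ = whitHeight Φ α fun i => (τ i).r := by
  rw [whit, norm_mul, norm_eC, mul_one, Complex.norm_real,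
    Real.norm_of_nonneg (whitHeight_nonneg α fun i => (τ i).r_pos.le)]

end Fermat.Agent.LT.Adelic

end
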