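import Fermat.Agent.LT.Whittaker.Defs
import Fermat.Agent.LT.Adelic.Approx
import Fermat.Agent.LT.Reduction.Frame
import Mathlib.RingTheory.Trace.Basic
import Mathlib.RingTheory.Norm.Basic

/-!
# Frequencies and lattice coordinates

For `M ≠ 0` the lattice `M 𝓞` in `ℂ^ι` has coordinates `latPt M`; the frequency of `α` in these
coordinates is `j ↦ Tr (α M ωⱼ)`.
-/

set_option autoImplicit false

noncomputable section

namespace Fermat.Agent.LT.Adelic

open NumberField NumberField.InfinitePlace IsDedekindDomain Module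
open scoped Real

variable {K : Type*} [Field K] [NumberField K] {ι : Type*}

/-- The lattice index type. -/
abbrev LatIdx (K : Type*) [Field K] [NumberField K] : Type _ := Free.ChooseBasisIndex ℤ (𝓞 K)

theorem Frame.isFrame (Φ : Frame K ι) : Reduction.IsFrame Φ.emb where
  bijective := Φ.bij
  isComplex w := by
    obtain ⟨i, rfl⟩ := Φ.bij.surjective w
    exact Φ.complex i

variable [Fintype ι]

/-- The trace in terms of a frame. -/
theorem Frame.trace_eq (Φ : Frame K ι) (x : K) :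
    ((Algebra.trace ℚ K x : ℚ) : ℝ) = 2 * ∑ i, (Φ.emb i x).re := by
  classical
  have hne : ∀ i, ComplexEmbedding.conjugate (Φ.emb i) ≠ Φ.emb i := fun i h =>
    isComplex_mk_iff.mp (Φ.complex i) (ComplexEmbedding.isReal_iff.mpr h)
  let f : ι × Bool → (K →+* ℂ) := fun p =>
    if p.2 then Φ.emb p.1 else ComplexEmbedding.conjugate (Φ.emb p.1)
  have hmk : ∀ p, InfinitePlace.mk (f p) = InfinitePlace.mk (Φ.emb p.1) := by
    rintro ⟨i, _ | _⟩ <;> simp [f, InfinitePlace.mk_conjugate_eq]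
  have hinj : Function.Injective f := by
    rintro ⟨i, a⟩ ⟨j, b⟩ h
    obtain rfl : i = j := Φ.bij.injective (by rw [← hmk (i, a), h, hmk])
    cases a <;> cases b <;> simp [f] at h ⊢
    · exact hne i h
    · exact hne i h.symm
  have hsurj : Function.Surjective f := fun σ => by
    obtain ⟨i, hi⟩ := Φ.bij.surjective (InfinitePlace.mk σ)
    rcases mk_eq_iff.mp hi with h | h
    · exact ⟨(i, true), by simpa [f] using h⟩
    · exact ⟨(i, false), by simpa [f] using h⟩
  have key : ((Algebra.trace ℚ K x : ℚ) : ℂ) = ((2 * ∑ i, (Φ.emb i x).re : ℝ) : ℂ) := by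
    rw [show ((Algebra.trace ℚ K x : ℚ) : ℂ) = algebraMap ℚ ℂ (Algebra.trace ℚ K x) from
      (eq_ratCast _ _).symm, trace_eq_sum_embeddings ℂ,
      Fintype.sum_equiv (RingHom.equivRatAlgHom (R := K) (S := ℂ)).symm
        (fun σ : K →ₐ[ℚ] ℂ => σ x) (fun σ : K →+* ℂ => σ x) (fun _ => rfl),
      ← (Equiv.ofBijective f ⟨hinj, hsurj⟩).sum_comp, Fintype.sum_prod_type, Finset.mul_sum,
      Complex.ofReal_sum]
    refine Finset.sum_congr rfl fun i _ => ?_
    rw [Fintype.sum_bool]
    show Φ.emb i x + ComplexEmbedding.conjugate (Φ.emb i) x = _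
    rw [ComplexEmbedding.conjugate_coe_eq, Complex.add_conj]
  exact_mod_cast key

theorem whitPhase_emb (Φ : Frame K ι) (α x : K) :
    whitPhase Φ α (fun i => Φ.emb i x) = ((Algebra.trace ℚ K (α * x) : ℚ) : ℝ) := by
  rw [Φ.trace_eq, whitPhase]
  simp only [map_mul]

/-- The basis of `K` dual to the integral basis under the trace. -/
def dualIntBasis (K : Type*) [Field K] [NumberField K] : Basis (LatIdx K) ℚ K :=
  (Algebra.traceForm ℚ K).dualBasis (traceForm_nondegenerate ℚ K) (integralBasis K)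

theorem trace_dualIntBasis_mul (j l : LatIdx K) :
    Algebra.trace ℚ K (dualIntBasis K j * integralBasis K l) = if l = j then 1 else 0 := by
  rw [← Algebra.traceForm_apply, dualIntBasis, LinearMap.BilinForm.apply_dualBasis_left]

/-- The frequency with given lattice coordinates. -/
def freqOf (M : ℕ) (k : LatIdx K → ℤ) : K :=
  (M : K)⁻¹ * ∑ j, (k j : K) * dualIntBasis K j

theorem trace_freqOf {M : ℕ} (hM : M ≠ 0) (k : LatIdx K → ℤ) (l : LatIdx K) :
    Algebra.trace ℚ K (freqOf M k * ((M : K) * integralBasis K l)) = k l := by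
  have hM' : (M : K) ≠ 0 := Nat.cast_ne_zero.mpr hM
  rw [freqOf, show ((M : K)⁻¹ * ∑ j, (k j : K) * dualIntBasis K j) *
      ((M : K) * integralBasis K l) = ∑ j, (k j : K) * dualIntBasis K j * integralBasis K l by
    rw [mul_comm (M : K)⁻¹, mul_assoc, inv_mul_cancel_left₀ hM', Finset.sum_mul],
    map_sum, Finset.sum_eq_single l]
  · rw [mul_assoc, show (k l : K) * (dualIntBasis K l * integralBasis K l) =
      k l • (dualIntBasis K l * integralBasis K l) by rw [zsmul_eq_mul], map_zsmul,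
      trace_dualIntBasis_mul, if_pos rfl, zsmul_eq_mul, mul_one]
  · intro j _ hj
    rw [mul_assoc, show (k j : K) * (dualIntBasis K j * integralBasis K l) =
      k j • (dualIntBasis K j * integralBasis K l) by rw [zsmul_eq_mul], map_zsmul,
      trace_dualIntBasis_mul, if_neg (Ne.symm hj), smul_zero]
  · simp

theorem freqOf_injective {M : ℕ} (hM : M ≠ 0) : Function.Injective (freqOf (K := K) M) :=
  fun k k' h => funext fun l => Int.cast_injective (α := ℚ) (by
    rw [← trace_freqOf hM k l, h, trace_freqOf hM])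

theorem freqOf_zero (M : ℕ) : freqOf (K := K) M 0 = 0 := by simp [freqOf]

theorem exists_freqOf_integral (M : ℕ) (hM : M ≠ 0) :
    ∃ N : ℕ, N ≠ 0 ∧ ∀ k : LatIdx K → ℤ, IsIntegral ℤ ((N : K) * freqOf M k) := by
  have h : ∀ j : LatIdx K, ∃ y : ℤ, y ≠ 0 ∧ IsIntegral ℤ ((y : K) * dualIntBasis K j) := fun j => by
    obtain ⟨x, hx⟩ := IsIntegral.exists_multiple_integral_of_isLocalization (nonZeroDivisors ℤ)
      (dualIntBasis K j) (Algebra.IsIntegral.isIntegral (R := ℚ) _)
    exact ⟨x, nonZeroDivisors.coe_ne_zero x, by rwa [Submonoid.smul_def, zsmul_eq_mul] at hx⟩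
  choose y hy0 hy using h
  refine ⟨M * ∏ j, (y j).natAbs, mul_ne_zero hM
    (Finset.prod_ne_zero_iff.mpr fun j _ => Int.natAbs_ne_zero.mpr (hy0 j)), fun k => ?_⟩
  have hM' : (M : K) ≠ 0 := Nat.cast_ne_zero.mpr hM
  rw [freqOf, Nat.cast_mul, mul_comm (M : K), mul_assoc, mul_inv_cancel_left₀ hM', Finset.mul_sum]
  refine IsIntegral.sum _ fun j _ => ?_
  obtain ⟨c, hc⟩ : (y j : ℤ) ∣ ((∏ i, (y i).natAbs : ℕ) : ℤ) :=
    Int.natAbs_dvd.mp (Int.natCast_dvd_natCast.mpr
      (Finset.dvd_prod_of_mem (fun i => (y i).natAbs) (Finset.mem_univ j)))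
  rw [show ((∏ i, (y i).natAbs : ℕ) : K) = (((∏ i, (y i).natAbs : ℕ) : ℤ) : K) by norm_num, hc,
    Int.cast_mul, show (y j : K) * (c : K) * ((k j : K) * dualIntBasis K j) =
      ((c * k j : ℤ) : K) * ((y j : K) * dualIntBasis K j) by push_cast; ring]
  exact (isIntegral_algebraMap (x := c * k j)).mul (hy j)

/-- The lattice frequencies of an element with `M α` integral. -/
theorem exists_eq_freqOf {M : ℕ} (hM : M ≠ 0) {α : K} (hα : IsIntegral ℤ ((M : K) * α)) :
    ∃ k : LatIdx K → ℤ, α = freqOf M k := by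
  have hM' : (M : K) ≠ 0 := Nat.cast_ne_zero.mpr hM
  have h : ∀ l, ∃ n : ℤ, Algebra.trace ℚ K (α * ((M : K) * integralBasis K l)) = n := fun l => by
    have h1 : IsIntegral ℤ (Algebra.trace ℚ K ((M : K) * α * integralBasis K l)) :=
      Algebra.isIntegral_trace (hα.mul (by
        rw [integralBasis_apply]; exact (RingOfIntegers.basis K l).2))
    obtain ⟨n, hn⟩ := IsIntegrallyClosed.isIntegral_iff.mp h1
    exact ⟨n, by rw [← mul_assoc, mul_comm α, ← hn]; simp⟩
  choose k hk using h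
  refine ⟨k, ?_⟩
  have hzero : ∀ v, (Algebra.traceForm ℚ K) (α - freqOf M k) v = 0 := by
    intro v
    obtain ⟨w, rfl⟩ : ∃ w, (M : K) * w = v := ⟨(M : K)⁻¹ * v, mul_inv_cancel_left₀ hM' v⟩
    rw [← (integralBasis K).sum_repr w, Finset.mul_sum, map_sum]
    refine Finset.sum_eq_zero fun l _ => ?_
    rw [mul_smul_comm, map_smul, Algebra.traceForm_apply, sub_mul, map_sub, hk, trace_freqOf hM,
      sub_self, smul_zero]
  exact sub_eq_zero.mp ((traceForm_nondegenerate ℚ K).1 _ hzero)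

/-- Coordinates of the lattice `M 𝓞`. -/
def latPt (Φ : Frame K ι) (M : ℕ) (t : LatIdx K → ℝ) : ι → ℂ :=
  fun i => ∑ j, (t j : ℂ) * Φ.emb i ((M : K) * integralBasis K j)

theorem latPt_add (Φ : Frame K ι) (M : ℕ) (s t : LatIdx K → ℝ) :
    latPt Φ M (s + t) = latPt Φ M s + latPt Φ M t := by
  funext i
  simp only [latPt, Pi.add_apply, Complex.ofReal_add, add_mul, Finset.sum_add_distrib]

theorem latPt_intVec (Φ : Frame K ι) (M : ℕ) (n : LatIdx K → ℤ) :
    latPt Φ M (Poisson.intVec n) =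
      fun i => Φ.emb i ((M : K) * ((∑ j, n j • RingOfIntegers.basis K j : 𝓞 K) : K)) := by
  funext i
  simp only [latPt, Poisson.intVec_apply, Complex.ofReal_intCast, integralBasis_apply]
  rw [show ((∑ j, n j • RingOfIntegers.basis K j : 𝓞 K) : K) =
      ∑ j, (n j : K) * algebraMap (𝓞 K) K (RingOfIntegers.basis K j) by
    simp [map_sum, zsmul_eq_mul], Finset.mul_sum, map_sum]
  refine Finset.sum_congr rfl fun j _ => ?_
  simp only [map_mul, map_intCast, map_natCast]
  ring

theorem continuous_latPt (Φ : Frame K ι) (M : ℕ) : Continuous (latPt Φ M) :=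
  continuous_pi fun i => continuous_finsetSum _ fun j _ =>
    (Complex.continuous_ofReal.comp (continuous_apply j)).mul continuous_const

theorem latPt_surjective (Φ : Frame K ι) {M : ℕ} (hM : M ≠ 0) :
    Function.Surjective (latPt Φ M) := by
  intro z
  refine ⟨fun j => (M : ℝ)⁻¹ * Φ.isFrame.basis.repr z j, funext fun i => ?_⟩
  have hM' : (M : ℂ) ≠ 0 := Nat.cast_ne_zero.mpr hM
  have h := congrFun (Φ.isFrame.basis.sum_repr z) i
  rw [← h, Finset.sum_apply]
  refine Finset.sum_congr rfl fun j _ => ?_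
  rw [Pi.smul_apply, Φ.isFrame.basis_apply, Complex.real_smul, map_mul, map_natCast]
  push_cast
  field_simp

theorem whitPhase_latPt (Φ : Frame K ι) {M : ℕ} (hM : M ≠ 0) (k : LatIdx K → ℤ)
    (t : LatIdx K → ℝ) :
    whitPhase Φ (freqOf M k) (latPt Φ M t) = ∑ j, (k j : ℝ) * t j := by
  have h1 : ∀ j, (k j : ℝ) =
      2 * ∑ i, (Φ.emb i (freqOf M k) * Φ.emb i ((M : K) * integralBasis K j)).re := fun j => by
    have := congrArg (fun q : ℚ => (q : ℝ)) (trace_freqOf hM k j)
    simp only [Φ.trace_eq, Rat.cast_intCast, map_mul] at this ⊢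
    exact this.symm
  simp only [h1, whitPhase, latPt, Finset.mul_sum, Finset.sum_mul, Complex.re_sum]
  rw [Finset.sum_comm]
  refine Finset.sum_congr rfl fun j _ => Finset.sum_congr rfl fun i _ => ?_
  rw [mul_left_comm (Φ.emb i (freqOf M k)), Complex.re_ofReal_mul]
  ring

/-- A bound for the frequencies. -/
theorem exists_abs_le_sum_norm_freqOf (Φ : Frame K ι) {M : ℕ} (hM : M ≠ 0) :
    ∃ B : ℝ, 0 < B ∧ ∀ k : LatIdx K → ℤ, ∀ j, |(k j : ℝ)| ≤ B * ∑ i, ‖Φ.emb i (freqOf M k)‖ := by
  refine ⟨2 * ∑ j, ∑ i, ‖Φ.emb i ((M : K) * integralBasis K j)‖ + 1, by positivity, fun k j => ?_⟩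
  have h : (k j : ℝ) =
      2 * ∑ i, (Φ.emb i (freqOf M k) * Φ.emb i ((M : K) * integralBasis K j)).re := by
    have := congrArg (fun q : ℚ => (q : ℝ)) (trace_freqOf hM k j)
    simp only [Φ.trace_eq, Rat.cast_intCast, map_mul] at this ⊢
    exact this.symm
  rw [h, abs_mul, abs_two, add_mul, mul_assoc, one_mul]
  refine le_add_of_le_of_nonneg (mul_le_mul_of_nonneg_left
    ((Finset.abs_sum_le_sum_abs _ _).trans ?_) zero_le_two) (by positivity)
  rw [Finset.mul_sum]
  refine Finset.sum_le_sum fun i _ => ((Complex.abs_re_le_norm _).trans (norm_mul_le _ _)).trans ?_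
  rw [mul_comm]
  refine mul_le_mul_of_nonneg_right ?_ (norm_nonneg _)
  exact (Finset.single_le_sum (fun i _ => norm_nonneg (Φ.emb i ((M : K) * integralBasis K j)))
    (Finset.mem_univ i)).trans (Finset.single_le_sum
      (f := fun j => ∑ i, ‖Φ.emb i ((M : K) * integralBasis K j)‖)
      (fun _ _ => by positivity) (Finset.mem_univ j))

end Fermat.Agent.LT.Adelic

end
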