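import Fermat.Agent.LT.Whittaker.Torus
import Fermat.Agent.LT.Whittaker.Lattice
import Mathlib.MeasureTheory.Integral.Average
import Mathlib.MeasureTheory.Measure.Lebesgue.EqHaar

/-!
# Box averages of periodic functions
-/

set_option autoImplicit false

noncomputable section

namespace Fermat.Agent.LT.Adelic

open MeasureTheory Metric Filter Module NumberField
open scoped Topology

variable {V : Type*} [NormedAddCommGroup V] [MeasurableSpace V] [BorelSpace V]

/-- Translating a ball changes the integral of a bounded function by at most a shell. -/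
theorem norm_integral_closedBall_sub_le {μ : Measure V} [μ.IsAddRightInvariant] {g : V → ℂ} {C : ℝ}
    (hg : AEStronglyMeasurable g μ) (hC : ∀ x, ‖g x‖ ≤ C) (hfin : ∀ (x : V) R, μ (closedBall x R) ≠ ⊤)
    (v : V) {R δ : ℝ} (hv : ‖v‖ ≤ δ) :
    ‖(∫ x in closedBall (0 : V) R, g (x + v) ∂μ) - ∫ x in closedBall (0 : V) R, g x ∂μ‖ ≤
      2 * C * (μ.real (closedBall (0 : V) R) - μ.real (closedBall (0 : V) (R - δ))) := by
  have hC0 : 0 ≤ C := (norm_nonneg _).trans (hC 0)
  have hpre : (fun x => x + v) ⁻¹' closedBall v R = closedBall (0 : V) R := by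
    ext x; simp [dist_eq_norm]
  have e1 : ∫ x in closedBall (0 : V) R, g (x + v) ∂μ = ∫ x in closedBall v R, g x ∂μ := by
    rw [← hpre]
    exact (measurePreserving_add_right μ v).setIntegral_preimage_emb
      (MeasurableEquiv.addRight v).measurableEmbedding g (closedBall v R)
  have hvol : μ.real (closedBall v R) = μ.real (closedBall (0 : V) R) := by
    rw [← hpre, Measure.real, Measure.real,
      (measurePreserving_add_right μ v).measure_preimage measurableSet_closedBall.nullMeasurableSet]
  have hsub0 : closedBall (0 : V) (R - δ) ⊆ closedBall (0 : V) R :=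
    closedBall_subset_closedBall (by linarith [(norm_nonneg v).trans hv])
  have hsubv : closedBall (0 : V) (R - δ) ⊆ closedBall v R :=
    closedBall_subset_closedBall' (by rw [dist_zero_left]; linarith)
  have hint : ∀ x R, IntegrableOn g (closedBall x R) μ := fun x R =>
    IntegrableOn.of_bound (lt_top_iff_ne_top.mpr (hfin x R)) hg.restrict C
      (Eventually.of_forall hC)
  have shell : ∀ x, closedBall (0 : V) (R - δ) ⊆ closedBall x R →
      ‖(∫ y in closedBall x R, g y ∂μ) - ∫ y in closedBall (0 : V) (R - δ), g y ∂μ‖ ≤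
        C * (μ.real (closedBall x R) - μ.real (closedBall (0 : V) (R - δ))) := by
    intro x hx
    rw [← setIntegral_sdiff measurableSet_closedBall (hint x R) hx]
    refine (norm_setIntegral_le_of_norm_le_const (lt_of_le_of_lt (measure_mono Set.diff_subset)
      (lt_top_iff_ne_top.mpr (hfin x R))) fun y _ => hC y).trans_eq ?_
    rw [measureReal_sdiff hx measurableSet_closedBall (hfin x R)]
  have h0 := shell 0 hsub0
  have h1 := shell v hsubv
  rw [hvol] at h1
  rw [e1]
  calc _ = ‖((∫ y in closedBall v R, g y ∂μ) - ∫ y in closedBall (0 : V) (R - δ), g y ∂μ) -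
        ((∫ y in closedBall (0 : V) R, g y ∂μ) - ∫ y in closedBall (0 : V) (R - δ), g y ∂μ)‖ := by
        congr 1; ring
    _ ≤ _ := (norm_sub_le _ _).trans ((add_le_add h1 h0).trans_eq (by ring))

theorem tendsto_shell_div [NormedSpace ℝ V] [FiniteDimensional ℝ V] (μ : Measure V)
    [μ.IsAddHaarMeasure] (δ : ℝ) :
    Tendsto (fun R : ℝ => (μ.real (closedBall (0 : V) R) - μ.real (closedBall (0 : V) (R - δ))) /
      μ.real (closedBall (0 : V) R)) atTop (𝓝 0) := by
  have hlim : Tendsto (fun R : ℝ => 1 - ((R - δ) / R) ^ finrank ℝ V) atTop (𝓝 0) := by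
    have h1 : Tendsto (fun R : ℝ => (R - δ) / R) atTop (𝓝 1) := by
      have : Tendsto (fun R : ℝ => 1 - δ / R) atTop (𝓝 1) := by
        simpa using tendsto_const_nhds.sub (tendsto_id.const_div_atTop δ)
      refine this.congr' ?_
      filter_upwards [eventually_ne_atTop (0 : ℝ)] with R hR
      field_simp
    simpa using (tendsto_const_nhds (x := (1 : ℝ))).sub (h1.pow (finrank ℝ V))
  refine hlim.congr' ?_
  filter_upwards [eventually_gt_atTop (max δ 0)] with R hR
  have hR0 : 0 < R := (le_max_right _ _).trans_lt hR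
  have hRd : 0 ≤ R - δ := by linarith [le_max_left δ 0]
  have hb : μ.real (ball (0 : V) 1) ≠ 0 := (ENNReal.toReal_pos (measure_ball_pos μ 0 one_pos).ne'
    measure_ball_lt_top.ne).ne'
  simp only [Measure.real] at hb ⊢
  rw [Measure.addHaar_closedBall μ 0 hR0.le, Measure.addHaar_closedBall μ 0 hRd,
    ENNReal.toReal_mul, ENNReal.toReal_mul, ENNReal.toReal_ofReal (by positivity),
    ENNReal.toReal_ofReal (by positivity), div_pow]
  field_simp

variable {K : Type*} [Field K] [NumberField K] {ι : Type*} [Fintype ι] {Φ : Frame K ι}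

/-- The mean over large boxes of a continuous bounded periodic function is its mean over a
period box. -/
theorem tendsto_average_periodic {M : ℕ} (hM : M ≠ 0) {f : (ι → ℂ) → ℂ} (hf : Continuous f) {C : ℝ}
    (hC : ∀ z, ‖f z‖ ≤ C)
    (hper : ∀ (z : ι → ℂ) (n : LatIdx K → ℤ), f (z + latPt Φ M (Poisson.intVec n)) = f z) :
    Tendsto (fun R : ℝ => ⨍ z in Set.univ.pi (fun _ : ι => closedBall (0 : ℂ) R), f z ∂volume)
      atTop (𝓝 (∫ t in Poisson.unitBox, f (latPt Φ M t))) := by
  set m := ∫ t in Poisson.unitBox, f (latPt Φ M t) with hm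
  set μ : Measure (ι → ℂ) := volume
  have hc0 : Continuous fun t : LatIdx K → ℝ => f (latPt Φ M t) := hf.comp (continuous_latPt Φ M)
  have hp0 : ∀ t n, f (latPt Φ M (t + Poisson.intVec n)) = f (latPt Φ M t) := fun t n => by
    rw [latPt_add, hper]
  have hmean : ∀ z : ι → ℂ, ∫ t in Poisson.unitBox, f (z + latPt Φ M t) = m := by
    intro z
    obtain ⟨s, rfl⟩ := latPt_surjective Φ hM z
    rw [hm, ← WTorus.setIntegral_unitBox_comp_add hc0 hp0 s]
    refine setIntegral_congr_fun Poisson.measurableSet_unitBox fun t _ => ?_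
    show f _ = f _
    rw [latPt_add, add_comm]
  set δ : ℝ := ∑ j, ∑ i, ‖Φ.emb i ((M : K) * integralBasis K j)‖
  have hδ : ∀ t ∈ Poisson.unitBox (d := LatIdx K), ‖latPt Φ M t‖ ≤ δ := by
    intro t ht
    refine (pi_norm_le_iff_of_nonneg (by positivity)).mpr fun i => (norm_sum_le _ _).trans ?_
    refine Finset.sum_le_sum fun j _ => ?_
    rw [norm_mul, Complex.norm_real, Real.norm_eq_abs]
    have := ht j
    rw [Set.mem_Ioc, zero_add] at this
    exact (mul_le_of_le_one_left (norm_nonneg _) (abs_le.mpr ⟨by linarith, this.2⟩)).trans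
      (Finset.single_le_sum (f := fun i => ‖Φ.emb i ((M : K) * integralBasis K j)‖)
        (fun i _ => norm_nonneg _) (Finset.mem_univ i))
  haveI : IsFiniteMeasure (volume.restrict (Poisson.unitBox (d := LatIdx K))) :=
    isFiniteMeasure_restrict.mpr (by rw [WTorus.measure_unitBox]; exact ENNReal.one_ne_top)
  have key : ∀ R : ℝ, 0 < R → dist (⨍ z in Set.univ.pi (fun _ : ι => closedBall (0 : ℂ) R), f z ∂μ) m ≤
      2 * C * ((μ.real (closedBall (0 : ι → ℂ) R) - μ.real (closedBall (0 : ι → ℂ) (R - δ))) /
        μ.real (closedBall (0 : ι → ℂ) R)) := by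
    intro R hR
    rw [show (Set.univ.pi fun _ : ι => closedBall (0 : ℂ) R) = closedBall (0 : ι → ℂ) R from
      (closedBall_pi (0 : ι → ℂ) hR.le).symm, setAverage_eq]
    set B := closedBall (0 : ι → ℂ) R with hB
    haveI : IsFiniteMeasure (μ.restrict B) :=
      isFiniteMeasure_restrict.mpr measure_closedBall_lt_top.ne
    have hvB : 0 < μ.real B :=
      ENNReal.toReal_pos (measure_closedBall_pos μ 0 hR).ne' measure_closedBall_lt_top.ne
    have hfm : AEStronglyMeasurable f μ := hf.aestronglyMeasurable
    have hI : Integrable (fun p : (LatIdx K → ℝ) × (ι → ℂ) => f (p.2 + latPt Φ M p.1))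
        ((volume.restrict Poisson.unitBox).prod (μ.restrict B)) :=
      Integrable.of_bound (hf.comp (continuous_snd.add
        ((continuous_latPt Φ M).comp continuous_fst))).aestronglyMeasurable C
        (Eventually.of_forall fun p => hC _)
    have e1 : (μ.real B : ℂ) * m = ∫ t in Poisson.unitBox, ∫ z in B, f (z + latPt Φ M t) ∂μ := by
      rw [integral_integral_swap (f := fun t z => f (z + latPt Φ M t)) hI]
      simp only [hmean, setIntegral_const, Complex.real_smul]
    have e2 : ∫ t in Poisson.unitBox (d := LatIdx K), (∫ z in B, f z ∂μ) = ∫ z in B, f z ∂μ := by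
      rw [setIntegral_const, Measure.real, WTorus.measure_unitBox]; simp
    have e3 : ‖(μ.real B : ℂ) * m - ∫ z in B, f z ∂μ‖ ≤
        2 * C * (μ.real B - μ.real (closedBall (0 : ι → ℂ) (R - δ))) := by
      rw [e1, ← e2, ← integral_sub hI.integral_prod_left (integrable_const _)]
      refine (norm_setIntegral_le_of_norm_le_const
        (by rw [WTorus.measure_unitBox]; exact ENNReal.one_lt_top) fun t ht =>
          norm_integral_closedBall_sub_le hfm hC (fun _ _ => measure_closedBall_lt_top.ne) _
            (hδ t ht)).trans_eq ?_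
      simp [Measure.real, WTorus.measure_unitBox, hB]
    rw [dist_eq_norm, ← norm_neg, neg_sub, Complex.real_smul, Complex.ofReal_inv]
    have : m - (μ.real B : ℂ)⁻¹ * ∫ z in B, f z ∂μ =
        (μ.real B : ℂ)⁻¹ * ((μ.real B : ℂ) * m - ∫ z in B, f z ∂μ) := by
      rw [mul_sub, inv_mul_cancel_left₀ (Complex.ofReal_ne_zero.mpr hvB.ne')]
    rw [this, norm_mul, norm_inv, Complex.norm_real, Real.norm_of_nonneg hvB.le, mul_div_assoc',
      le_div_iff₀ hvB, mul_comm _ (μ.real B), ← mul_assoc, mul_inv_cancel₀ hvB.ne', one_mul]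
    exact e3
  rw [tendsto_iff_dist_tendsto_zero]
  have h0 := (tendsto_shell_div μ δ).const_mul (2 * C)
  rw [mul_zero] at h0
  refine squeeze_zero' (Eventually.of_forall fun _ => dist_nonneg) ?_ h0
  filter_upwards [eventually_gt_atTop (0 : ℝ)] with R hR using key R hR

end Fermat.Agent.LT.Adelic

end
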