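import Fermat.Agent.LT.Whittaker.Lattice

/-!
# Periods of an automorphic function in the horizontal coordinates
-/

set_option autoImplicit false

noncomputable section

namespace Fermat.Agent.LT.Adelic

open NumberField IsDedekindDomain Matrix

variable {K : Type*} [Field K] [NumberField K] {ι : Type*} {Φ : Frame K ι}
  {U : Subgroup (GfK K)}

theorem unipotent_smul_hspace (b : ℂ) (p : HSpace) :
    (unipotent b : GL (Fin 2) ℂ) • p = ⟨p.z + b, p.r, p.r_pos⟩ := by
  refine HSpace.ext ?_ ?_
  · simp [HSpace.smul_z, HSpace.denSq]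
  · simp [HSpace.smul_r, HSpace.denSq, HSpace.absDet, Matrix.det_fin_two]

theorem unipotent_inv {R : Type*} [CommRing R] (t : R) : (unipotent t)⁻¹ = unipotent (-t) := by
  apply GL.ext_fin_two
  ext i j; fin_cases i <;> fin_cases j <;> rfl

theorem toGf_unipotent (x : K) :
    toGf K (unipotent x) = unipotent (algebraMap K (FiniteAdeleRing (𝓞 K) K) x) :=
  map_unipotent _ x

theorem unipotent_mem_principalLevel {n : 𝓞 K} {t : FiniteAdeleRing (𝓞 K) K} (ht : MemMul n t) :
    (unipotent t : GfK K) ∈ principalLevel K n := by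
  have h : ∀ s : FiniteAdeleRing (𝓞 K) K, MemMul n s →
      MatMemMul n (((unipotent s : GfK K) : Matrix (Fin 2) (Fin 2) (FiniteAdeleRing (𝓞 K) K)) - 1) := by
    intro s hs i j
    fin_cases i <;> fin_cases j <;> simp [hs, memMul_zero_right]
  exact ⟨h t ht, by rw [unipotent_inv]; exact h _ ht.neg⟩

/-- Small unipotents fix a given finite coordinate. -/
theorem exists_unipotent_smul_eq (hU : IsLevel U) (y : Yf U) :
    ∃ M : ℕ, M ≠ 0 ∧ ∀ t : FiniteAdeleRing (𝓞 K) K, MemMul ((M : ℕ) : 𝓞 K) t →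
      (unipotent t : GfK K) • y = y := by
  induction y using QuotientGroup.induction_on with
  | _ g =>
    obtain ⟨n, hn, hnU, -⟩ := hU
    obtain ⟨m, hm, hconj⟩ := exists_conj_le g⁻¹ hn
    refine ⟨Ideal.absNorm (Ideal.span {m}), ?_, fun t ht => ?_⟩
    · simpa [Ideal.absNorm_eq_zero_iff] using hm
    · have hdvd : m ∣ ((Ideal.absNorm (Ideal.span {m}) : ℕ) : 𝓞 K) :=
        Ideal.mem_span_singleton.mp (Ideal.absNorm_mem _)
      have h := hconj _ (unipotent_mem_principalLevel (ht.of_dvd hdvd)).inv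
      rw [inv_inv] at h
      refine QuotientGroup.eq.mpr (le_levelZ U (hnU ?_))
      simpa [smul_eq_mul] using h


theorem smul_mk_unipotent (x : K) (τ : ι → HSpace) (y : Yf U) :
    (unipotent x : GL (Fin 2) K) • Space.mk (Φ := Φ) τ y =
      Space.mk (fun i => ⟨(τ i).z + Φ.emb i x, (τ i).r, (τ i).r_pos⟩) (toGf K (unipotent x) • y) := by
  rw [Space.smul_mk]
  congr 1
  funext i
  rw [Frame.toInf, map_unipotent, unipotent_smul_hspace]

/-- The point with given coordinates (height `1` where `r` is not positive). -/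
def hpt (z : ι → ℂ) (r : ι → ℝ) : ι → HSpace := fun i =>
  ⟨z i, if 0 < r i then r i else 1, by split_ifs with h <;> [exact h; exact one_pos]⟩

omit [NumberField K] in
theorem hpt_r {z : ι → ℂ} {r : ι → ℝ} (hr : ∀ i, 0 < r i) :
    (fun i => (hpt z r i).r) = r := funext fun i => if_pos (hr i)

theorem hpt_self (τ : ι → HSpace) : hpt (fun i => (τ i).z) (fun i => (τ i).r) = τ :=
  funext fun i => HSpace.ext rfl (if_pos (τ i).r_pos)

theorem continuous_hpt_z (r : ι → ℝ) : Continuous fun z : ι → ℂ => hpt z r :=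
  continuous_pi fun i => continuous_induced_rng.mpr
    ((continuous_apply i).prodMk continuous_const)

theorem IsInvariant.apply_translate {φ : Space Φ U → ℂ} (hinv : IsInvariant φ) (x : K)
    (z : ι → ℂ) (r : ι → ℝ) (y : Yf U) :
    φ (Space.mk (hpt (z + fun i => Φ.emb i x) r) (toGf K (unipotent x) • y)) =
      φ (Space.mk (hpt z r) y) := by
  rw [← hinv (unipotent x) (Space.mk (hpt z r) y), smul_mk_unipotent]
  rfl

variable [Fintype ι]

/-- Periodicity along the lattice `M 𝓞`. -/
theorem exists_periods (hU : IsLevel U) {φ : Space Φ U → ℂ} (hinv : IsInvariant φ) (y : Yf U) :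
    ∃ M : ℕ, M ≠ 0 ∧ ∀ (t : LatIdx K → ℝ) (n : LatIdx K → ℤ) (r : ι → ℝ),
      φ (Space.mk (hpt (latPt Φ M (t + Poisson.intVec n)) r) y) =
        φ (Space.mk (hpt (latPt Φ M t) r) y) := by
  obtain ⟨M, hM, hfix⟩ := exists_unipotent_smul_eq hU y
  refine ⟨M, hM, fun t n r => ?_⟩
  set a : 𝓞 K := ∑ j, n j • RingOfIntegers.basis K j with ha
  have hy : toGf K (unipotent ((M : K) * (a : K))) • y = y := by
    rw [toGf_unipotent]
    refine hfix _ ?_
    rw [show (M : K) * (a : K) = algebraMap (𝓞 K) K ((M : 𝓞 K) * a) by simp,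
      ← IsScalarTower.algebraMap_apply, map_mul]
    exact (memMul_algebraMap _).mul_int (algebraMap_mem_intAdele a)
  rw [latPt_add, latPt_intVec, ← ha]
  conv_lhs => rw [← hy]
  exact hinv.apply_translate ((M : K) * (a : K)) (latPt Φ M t) r y

end Fermat.Agent.LT.Adelic

end
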