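import Fermat.Agent.LT.Whittaker.Defs
import Fermat.Agent.LT.Arch.Kernels
import Mathlib.Analysis.SpecialFunctions.Gaussian.FourierTransform

/-!
# The radial part of a Fourier coefficient of a spherical eigenfunction

With the kernel `exp (-b u)` the eigen relation reads
`∫ exp (-(b r/s + b s/r + A² r s/b)/2) g(s) s⁻² ds = 2 K₀(b) g(r)/r`; the left hand side is
symmetric under `(b, r) ↦ (A r, b/A)`, so `g(r) = c r K₀(A r)`.
-/

set_option autoImplicit false

noncomputable section

namespace Fermat.Agent.LT.Adelic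

open MeasureTheory Set Filter Real
open scoped Real ComplexConjugate RealInnerProductSpace

/-- The kernel `exp (-b u)`. -/
def expKer (b u : ℝ) : ℂ := (Real.exp (-(b * u)) : ℂ)

theorem continuous_expKer (b : ℝ) : Continuous (expKer b) := by unfold expKer; fun_prop

theorem isQuartic_expKer {b : ℝ} (hb : 0 < b) : Arch.IsQuartic (expKer b) := by
  refine ⟨24 / b ^ 4, by positivity, fun u hu => ?_⟩
  have h := Real.pow_div_factorial_le_exp (x := b * u) (by positivity) 4
  norm_num [Nat.factorial] at h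
  rw [expKer, Complex.norm_real, Real.norm_of_nonneg (Real.exp_pos _).le, Real.exp_neg,
    div_div, le_div_iff₀ (by positivity), inv_mul_le_iff₀ (Real.exp_pos _), ← mul_pow]
  linarith

theorem integral_gauss_eC (a : ℂ) {B : ℝ} (hB : 0 < B) :
    ∫ v : ℂ, (Real.exp (-(B * Complex.normSq v)) : ℂ) * Poisson.eC (2 * (a * v).re) =
      (π / B * Real.exp (-(4 * π ^ 2 * ‖a‖ ^ 2 / B)) : ℝ) := by
  have key := GaussianFourier.integral_cexp_neg_mul_sq_norm_add (V := ℂ) (b := (B : ℂ))
    (by simpa using hB) (4 * π * Complex.I) (conj a)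
  rw [Complex.finrank_real_complex] at key
  have e : ∀ v : ℂ, (Real.exp (-(B * Complex.normSq v)) : ℂ) * Poisson.eC (2 * (a * v).re) =
      Complex.exp (-(B : ℂ) * (‖v‖ : ℂ) ^ 2 + 4 * π * Complex.I * (⟪conj a, v⟫ : ℝ)) := by
    intro v
    rw [Poisson.eC, Complex.ofReal_exp, ← Complex.exp_add, Complex.inner, Complex.conj_conj,
      Complex.normSq_eq_norm_sq, mul_comm v a]
    congr 1
    push_cast
    ring
  simp only [e]
  rw [key, Nat.cast_ofNat, div_self two_ne_zero, Complex.cpow_one, Complex.norm_conj]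
  push_cast
  congr 2
  rw [mul_pow, mul_pow, Complex.I_sq]
  ring

/-- The weight of the radial integral. -/
def radKer (A b r s : ℝ) : ℝ :=
  Real.exp (-(b * r / s + b * s / r + A ^ 2 * r * s / b) / 2) / s ^ 2

theorem radKer_symm {A b r : ℝ} (hA : A ≠ 0) (s : ℝ) (hb : b ≠ 0) (hr : r ≠ 0) :
    radKer A (A * r) (b / A) s = radKer A b r s := by
  unfold radKer
  congr 3
  field_simp
  ring

/-- Reduction of the point-pair integral of a character times a function of the height. -/
theorem pointPair_fourier (a : ℂ) {b r : ℝ} (hb : 0 < b) (hr : 0 < r) (g : ℝ → ℂ)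
    (hint : Integrable (fun τ : HSpace => expKer b (HSpace.coshDist ⟨0, r, hr⟩ τ) *
      (Poisson.eC (2 * (a * τ.z).re) * g τ.r)) HSpace.measure) :
    ∫ τ, expKer b (HSpace.coshDist ⟨0, r, hr⟩ τ) * (Poisson.eC (2 * (a * τ.z).re) * g τ.r)
        ∂HSpace.measure =
      (2 * π * r / b : ℝ) * ∫ s in Ioi (0 : ℝ), radKer (4 * π * ‖a‖) b r s • g s := by
  set G : ℂ × ℝ → ℂ := fun x => expKer b (Arch.argU (Complex.normSq (0 - x.1)) r r x.2) *
    (Poisson.eC (2 * (a * x.1).re) * g x.2) with hG
  rw [show (fun τ : HSpace => expKer b (HSpace.coshDist ⟨0, r, hr⟩ τ) *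
    (Poisson.eC (2 * (a * τ.z).re) * g τ.r)) = fun τ => G τ.coords from rfl] at hint ⊢
  have hmeas : MeasurableSet {x : ℂ × ℝ | 0 < x.2} :=
    (isOpen_lt continuous_const continuous_snd).measurableSet
  have hint' : IntegrableOn (fun x => (x.2 ^ 3)⁻¹ • G x) {x : ℂ × ℝ | 0 < x.2} := by
    rw [show (fun τ : HSpace => G τ.coords) = G ∘ HSpace.coords from rfl,
      ← HSpace.measurableEmbedding_coords.integrable_map_iff, HSpace.measure,
      HSpace.measurableEmbedding_coords.map_comap, HSpace.range_coords,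
      restrict_withDensity hmeas, integrable_withDensity_iff_integrable_smul' (by fun_prop)
        (Filter.Eventually.of_forall fun _ => ENNReal.ofReal_lt_top)] at hint
    refine hint.congr ?_
    filter_upwards [ae_restrict_mem hmeas] with x (hx : 0 < x.2)
    rw [ENNReal.toReal_ofReal (by positivity)]
  have hset : {x : ℂ × ℝ | 0 < x.2} = (univ : Set ℂ) ×ˢ Ioi (0 : ℝ) := by ext; simp
  rw [Aleph.integral_measure_coords, hset, Measure.volume_eq_prod, ← setIntegral_prod_swap,
    setIntegral_prod _ (by rw [hset, Measure.volume_eq_prod] at hint'; exact hint'.swap),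
    ← integral_const_mul]
  refine setIntegral_congr_fun measurableSet_Ioi fun s (hs : 0 < s) => ?_
  simp only [Prod.swap_prod_mk, setIntegral_univ, hG]
  rw [integral_smul]
  have e : ∀ v : ℂ, expKer b (Arch.argU (Complex.normSq (0 - v)) r r s) *
      (Poisson.eC (2 * (a * v).re) * g s) =
      ((Real.exp (-(b / (2 * r * s) * Complex.normSq v)) : ℂ) * Poisson.eC (2 * (a * v).re)) *
        ((Real.exp (-(b * r / s + b * s / r) / 2) : ℂ) * g s) := fun v => by
    rw [expKer, Arch.argU, zero_sub, Complex.normSq_neg, show -(b * ((Complex.normSq v + r ^ 2 + s ^ 2) /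
      (2 * r * s))) = -(b / (2 * r * s) * Complex.normSq v) + -(b * r / s + b * s / r) / 2 by
        field_simp; ring, Real.exp_add, Complex.ofReal_mul]
    ring
  simp only [e]
  rw [integral_mul_const, integral_gauss_eC a (by positivity), Complex.real_smul, Complex.real_smul,
    radKer, show -(b * r / s + b * s / r + (4 * π * ‖a‖) ^ 2 * r * s / b) / 2 =
      -(4 * π ^ 2 * ‖a‖ ^ 2 / (b / (2 * r * s))) + -(b * r / s + b * s / r) / 2 by
        field_simp; ring, Real.exp_add]
  push_cast
  field_simp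

/-- The spherical transform of `exp (-b u)` at `0`. -/
theorem sphTransform_expKer {b : ℝ} (hb : 0 < b) :
    sphTransform (expKer b) 0 = (4 * π * Theta.besselK0 b / b : ℝ) := by
  have hint := Arch.integrable_pointPair (continuous_expKer b) (isQuartic_expKer hb) HSpace.base
    (j := 1) le_rfl
  simp only [pow_one] at hint
  have e : (fun τ : HSpace => expKer b (HSpace.coshDist HSpace.base τ) * (τ.r : ℂ)) =
      fun τ : HSpace => expKer b (HSpace.coshDist ⟨0, 1, one_pos⟩ τ) *
        (Poisson.eC (2 * ((0 : ℂ) * τ.z).re) * (τ.r : ℂ)) := by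
    funext τ; simp [HSpace.base]
  rw [sphTransform]
  simp only [add_zero, Complex.cpow_one]
  rw [e] at hint ⊢
  rw [pointPair_fourier 0 hb one_pos (fun s => (s : ℂ)) hint, Arch.integral_Ioi_eq_integral_exp one_pos]
  have e2 : ∀ t : ℝ, ((1 : ℝ) * Real.exp t) • (radKer (4 * π * ‖(0 : ℂ)‖) b 1 (1 * Real.exp t) •
      ((1 * Real.exp t : ℝ) : ℂ)) =
      ((Real.exp (-(b / 2 * Real.exp t + b / 2 * Real.exp (-t))) : ℝ) : ℂ) := fun t => by
    simp only [radKer, one_mul, norm_zero, mul_zero, Complex.real_smul]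
    rw [← Complex.ofReal_mul, ← Complex.ofReal_mul]
    congr 1
    rw [Real.exp_neg t]
    field_simp
    congr 1
    field_simp
    ring
  simp only [e2]
  rw [integral_complex_ofReal, Theta.integral_exp_neg_add_exp (by positivity) (by positivity),
    show b / 2 * (b / 2) = (b / 2) ^ 2 by ring, Real.sqrt_sq (by positivity),
    show 2 * (b / 2) = b by ring]
  push_cast
  ring

/-- The eigen relation for all `exp (-b u)` determines the dependence on the height. -/
theorem radial_unique (a : ℂ) (ha : a ≠ 0) (g : ℝ → ℂ)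
    (heig : ∀ b r : ℝ, 0 < b → ∀ hr : 0 < r,
      Integrable (fun τ : HSpace => expKer b (HSpace.coshDist ⟨0, r, hr⟩ τ) *
        (Poisson.eC (2 * (a * τ.z).re) * g τ.r)) HSpace.measure ∧
      ∫ τ, expKer b (HSpace.coshDist ⟨0, r, hr⟩ τ) * (Poisson.eC (2 * (a * τ.z).re) * g τ.r)
        ∂HSpace.measure = sphTransform (expKer b) 0 * g r)
    {r s : ℝ} (hr : 0 < r) (hs : 0 < s) :
    g r * ((s * Theta.besselK0 (4 * π * ‖a‖ * s) : ℝ) : ℂ) =
      g s * ((r * Theta.besselK0 (4 * π * ‖a‖ * r) : ℝ) : ℂ) := by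
  set A := 4 * π * ‖a‖ with hA
  have hA0 : 0 < A := by have := norm_pos_iff.mpr ha; positivity
  have key : ∀ b r : ℝ, 0 < b → 0 < r →
      (r : ℂ) * ∫ x in Ioi (0 : ℝ), radKer A b r x • g x = 2 * (Theta.besselK0 b : ℂ) * g r := by
    intro b r hb hr
    obtain ⟨h1, h2⟩ := heig b r hb hr
    rw [pointPair_fourier a hb hr g h1, sphTransform_expKer hb, ← hA] at h2
    have hπ : (π : ℂ) ≠ 0 := Complex.ofReal_ne_zero.mpr pi_pos.ne'
    have hb' : (b : ℂ) ≠ 0 := Complex.ofReal_ne_zero.mpr hb.ne'
    push_cast at h2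
    field_simp at h2
    linear_combination h2 / 2
  have h1 := key (A * s) r (by positivity) hr
  have h2 := key (A * r) s (by positivity) hs
  have hsym : ∫ x in Ioi (0 : ℝ), radKer A (A * r) s x • g x =
      ∫ x in Ioi (0 : ℝ), radKer A (A * s) r x • g x :=
    setIntegral_congr_fun measurableSet_Ioi fun x _ => by
      have := radKer_symm hA0.ne' x (b := A * s) (mul_ne_zero hA0.ne' hs.ne') hr.ne'
      rw [mul_div_cancel_left₀ _ hA0.ne'] at this
      exact congrArg (· • g x) this
  rw [hsym] at h2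
  push_cast
  linear_combination ((r : ℂ) / 2) * h2 - ((s : ℂ) / 2) * h1

end Fermat.Agent.LT.Adelic

end
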