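import Fermat.Agent.LT.Boundary.Defs
import Fermat.Agent.LT.Adelic.HypMeasure
import Fermat.Agent.LT.Arch.Eigen
import Fermat.Agent.LT.Whittaker.Periodic
import Fermat.Agent.LT.Whittaker.Radial
import Fermat.Agent.LT.Whittaker.MeanValue

/-!
# Fourier coefficients of a spherical cusp form along a period lattice
-/

set_option autoImplicit false

noncomputable section

namespace Fermat.Agent.LT.Adelic

open NumberField MeasureTheory Filter
open scoped Real Topology

variable {K : Type*} [Field K] [NumberField K] {ι : Type*} [Fintype ι] [DecidableEq ι]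
  {Φ : Frame K ι} {U : Subgroup (GfK K)}

/-- The function on the period coordinates at height `r`. -/
def latFun (φ : Space Φ U → ℂ) (y : Yf U) (M : ℕ) (r : ι → ℝ) (t : LatIdx K → ℝ) : ℂ :=
  φ (Space.mk (hpt (latPt Φ M t) r) y)

/-- The Fourier coefficient at height `r`. -/
def fourCoef (φ : Space Φ U → ℂ) (y : Yf U) (M : ℕ) (k : LatIdx K → ℤ) (r : ι → ℝ) : ℂ :=
  WTorus.boxCoef (latFun φ y M r) k

/-- `M` gives periods of `φ` at `y`. -/
def IsPeriod (φ : Space Φ U → ℂ) (y : Yf U) (M : ℕ) : Prop :=
  M ≠ 0 ∧ ∀ r t n, latFun φ y M r (t + Poisson.intVec n) = latFun φ y M r t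

omit [Fintype ι] [DecidableEq ι] in
theorem exists_isPeriod [Fintype ι] (hU : IsLevel U) {φ : Space Φ U → ℂ} (hinv : IsInvariant φ)
    (y : Yf U) : ∃ M, IsPeriod φ y M := by
  obtain ⟨M, hM, h⟩ := exists_periods hU hinv y
  exact ⟨M, hM, fun r t n => h t n r⟩

variable {φ : Space Φ U → ℂ} {y : Yf U} {M : ℕ}

theorem continuous_latFun (hφ : LT.IsCuspEigen φ) (r : ι → ℝ) : Continuous (latFun φ y M r) :=
  (hφ.continuous y).comp ((continuous_hpt_z r).comp (continuous_latPt Φ M))

theorem norm_fourCoef_le {C : ℝ} (hC : ∀ x, ‖φ x‖ ≤ C) (k : LatIdx K → ℤ) (r : ι → ℝ) :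
    ‖fourCoef φ y M k r‖ ≤ C :=
  WTorus.norm_boxCoef_le (fun _ => hC _) k

theorem update_hpt (z : ι → ℂ) (r : ι → ℝ) (i : ι) (τ : HSpace) :
    Function.update (hpt z r) i (⟨τ.z + z i, τ.r, τ.r_pos⟩ : HSpace) =
      hpt (z + Pi.single i τ.z) (Function.update r i τ.r) := by
  funext j
  rcases eq_or_ne j i with rfl | h
  · exact (Function.update_self _ _ _).trans (HSpace.ext (by simp [hpt, add_comm])
      (by simp [hpt, τ.r_pos]))
  · rw [Function.update_of_ne h]
    exact HSpace.ext (by simp [hpt, Pi.single_eq_of_ne h]) (by simp [hpt, h])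

/-- The eigen relation for one coefficient. -/
theorem fourCoef_eigen (hU : IsLevel U) (hφ : LT.IsCuspEigen φ) (hM : IsPeriod φ y M)
    (k : LatIdx K → ℤ) (r : ι → ℝ) (i : ι) {b : ℝ} (hb : 0 < b) (hr : 0 < r i) :
    Integrable (fun τ : HSpace => expKer b (HSpace.coshDist ⟨0, r i, hr⟩ τ) *
      (Poisson.eC (2 * (Φ.emb i (freqOf M k) * τ.z).re) *
        fourCoef φ y M k (Function.update r i τ.r))) HSpace.measure ∧
    ∫ τ, expKer b (HSpace.coshDist ⟨0, r i, hr⟩ τ) *
      (Poisson.eC (2 * (Φ.emb i (freqOf M k) * τ.z).re) *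
        fourCoef φ y M k (Function.update r i τ.r)) ∂HSpace.measure =
      sphTransform (expKer b) 0 * fourCoef φ y M k r := by
  have := Arch.opensMeasurableSpace_hspace
  haveI : SecondCountableTopology (LatIdx K → ℝ) := inferInstance
  obtain ⟨C, hC⟩ := hφ.bounded
  set μt : Measure (LatIdx K → ℝ) := volume.restrict Poisson.unitBox
  haveI : IsFiniteMeasure μt :=
    isFiniteMeasure_restrict.mpr (by rw [WTorus.measure_unitBox]; exact ENNReal.one_ne_top)
  set κ : HSpace → ℂ := fun τ => expKer b (HSpace.coshDist ⟨0, r i, hr⟩ τ)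
  set χ : (LatIdx K → ℝ) → ℂ := fun t => Poisson.eC (-(∑ j, (k j : ℝ) * t j))
  set P : (LatIdx K → ℝ) → HSpace → ℂ := fun t τ =>
    φ (Space.mk (hpt (latPt Φ M t + Pi.single i τ.z) (Function.update r i τ.r)) y)
  have hκc : Continuous κ := (continuous_expKer b).comp (Arch.continuous_coshDist _)
  have hκi : Integrable κ HSpace.measure := by
    simpa using Arch.integrable_pointPair (continuous_expKer b) (isQuartic_expKer hb)
      (⟨0, r i, hr⟩ : HSpace) (j := 0) zero_le_one
  have hχc : Continuous χ := by simp only [χ, Poisson.eC]; fun_prop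
  have hχ1 : ∀ t, ‖χ t‖ = 1 := fun t => norm_eC _
  have hPc : Continuous fun p : (LatIdx K → ℝ) × HSpace => P p.1 p.2 := by
    refine (hφ.continuous y).comp (continuous_pi fun j => continuous_induced_rng.mpr ?_)
    refine Continuous.prodMk (((continuous_apply j).comp
      ((continuous_latPt Φ M).comp continuous_fst)).add ?_) ?_
    · rcases eq_or_ne j i with rfl | h
      · simpa [Function.comp_def] using HSpace.continuous_z.comp continuous_snd
      · simpa [Pi.single_eq_of_ne h] using continuous_const
    · rcases eq_or_ne j i with rfl | h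
      · simpa [Function.comp_def, hpt, fun p : (LatIdx K → ℝ) × HSpace => p.2.r_pos] using
          HSpace.continuous_r.comp continuous_snd
      · simpa [hpt, h] using continuous_const
  -- the eigen relation translated to the origin
  have hpoint : ∀ t, ∫ τ, κ τ * P t τ ∂HSpace.measure =
      sphTransform (expKer b) 0 * latFun φ y M r t := by
    intro t
    set z := latPt Φ M t with hz
    set x : Space Φ U := Space.mk (hpt z r) y
    have h := (Arch.pointPairOp_eq_of_isQuartic hφ.spherical hφ.bounded hφ.continuous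
      (continuous_expKer b) (isQuartic_expKer hb) i x).2
    rw [latFun, ← h, pointPairOp]
    have hg := (MeasureTheory.measurePreserving_smul (unipotent (z i) : GL (Fin 2) ℂ) HSpace.measure).integral_comp
      (measurableEmbedding_const_smul _)
      (fun τ => expKer b (HSpace.coshDist (x.pt i) τ) * φ (x.update i τ))
    rw [← hg]
    refine integral_congr_ae (Eventually.of_forall fun τ => ?_)
    have hp : x.pt i = (unipotent (z i) : GL (Fin 2) ℂ) • (⟨0, r i, hr⟩ : HSpace) := by
      rw [unipotent_smul_hspace]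
      exact HSpace.ext (by simp [x, hpt]) (by simp [x, hpt, hr])
    show κ τ * P t τ = expKer b (HSpace.coshDist (x.pt i) ((unipotent (z i) : GL (Fin 2) ℂ) • τ)) *
      φ (x.update i ((unipotent (z i) : GL (Fin 2) ℂ) • τ))
    rw [hp, HSpace.coshDist_smul, unipotent_smul_hspace, Space.update]
    simp only [x, Space.pt_mk, Space.fin_mk, P, κ, update_hpt, hz]
  -- the coefficient after translation
  have hinner : ∀ τ : HSpace, ∫ t, χ t * P t τ ∂μt =
      Poisson.eC (2 * (Φ.emb i (freqOf M k) * τ.z).re) *
        fourCoef φ y M k (Function.update r i τ.r) := by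
    intro τ
    obtain ⟨s, hs⟩ := latPt_surjective Φ hM.1 (Pi.single i τ.z)
    have hphase : ∑ j, (k j : ℝ) * s j = 2 * (Φ.emb i (freqOf M k) * τ.z).re := by
      rw [← whitPhase_latPt Φ hM.1, hs, whitPhase, Finset.sum_eq_single i]
      · simp
      · intro j _ hj; simp [Pi.single_eq_of_ne hj]
      · simp
    rw [← hphase, fourCoef,
      ← WTorus.boxCoef_comp_add (continuous_latFun hφ _) (hM.2 _) s k, WTorus.boxCoef]
    refine setIntegral_congr_fun Poisson.measurableSet_unitBox fun t _ => ?_
    show χ t * P t τ = χ t * latFun φ y M (Function.update r i τ.r) (t + s)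
    simp only [latFun, P, latPt_add, hs]
  have hI : Integrable (fun p : (LatIdx K → ℝ) × HSpace => χ p.1 * (κ p.2 * P p.1 p.2))
      (μt.prod HSpace.measure) := by
    refine (((integrable_const (1 : ℝ)).mul_prod hκi.norm).const_mul C).mono'
      ((hχc.comp continuous_fst).mul
        ((hκc.comp continuous_snd).mul hPc)).aestronglyMeasurable
      (Eventually.of_forall fun p => ?_)
    rw [norm_mul, norm_mul, hχ1, one_mul, one_mul, mul_comm C]
    exact mul_le_mul_of_nonneg_left (hC _) (norm_nonneg _)
  have e : ∀ τ, ∫ t, χ t * (κ τ * P t τ) ∂μt = κ τ *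
      (Poisson.eC (2 * (Φ.emb i (freqOf M k) * τ.z).re) *
        fourCoef φ y M k (Function.update r i τ.r)) := fun τ => by
    rw [← hinner τ, ← integral_const_mul]
    exact integral_congr_ae (Eventually.of_forall fun t => mul_left_comm _ _ _)
  refine ⟨hI.integral_prod_right.congr (Eventually.of_forall e), ?_⟩
  calc ∫ τ, κ τ * (Poisson.eC (2 * (Φ.emb i (freqOf M k) * τ.z).re) *
        fourCoef φ y M k (Function.update r i τ.r)) ∂HSpace.measure
      = ∫ τ, ∫ t, χ t * (κ τ * P t τ) ∂μt ∂HSpace.measure :=
        integral_congr_ae (Eventually.of_forall fun τ => (e τ).symm)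
    _ = ∫ t, ∫ τ, χ t * (κ τ * P t τ) ∂HSpace.measure ∂μt :=
        (integral_integral_swap (f := fun t τ => χ t * (κ τ * P t τ)) hI).symm
    _ = sphTransform (expKer b) 0 * fourCoef φ y M k r := by
        rw [fourCoef, WTorus.boxCoef, ← integral_const_mul]
        refine integral_congr_ae (Eventually.of_forall fun t => ?_)
        show ∫ τ, χ t * (κ τ * P t τ) ∂HSpace.measure = _
        rw [integral_const_mul, hpoint, mul_left_comm]

/-- The height dependence of a coefficient. -/
theorem fourCoef_eq (hU : IsLevel U) (hφ : LT.IsCuspEigen φ) (hM : IsPeriod φ y M)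
    {k : LatIdx K → ℤ} (hk : k ≠ 0) {r : ι → ℝ} (hr : ∀ i, 0 < r i) :
    fourCoef φ y M k r = fourCoef φ y M k (fun _ => 1) /
      (whitHeight Φ (freqOf M k) (fun _ => 1) : ℂ) * (whitHeight Φ (freqOf M k) r : ℂ) := by
  set α := freqOf (K := K) M k with hα
  have hα0 : α ≠ 0 := by
    rw [hα, ← freqOf_zero (K := K) M]; exact (freqOf_injective hM.1).ne hk
  have hne : ∀ r' : ι → ℝ, (∀ i, 0 < r' i) → (whitHeight Φ α r' : ℂ) ≠ 0 := fun r' h' =>
    Complex.ofReal_ne_zero.mpr (whitHeight_pos hα0 h').ne'
  have step : ∀ (r' : ι → ℝ), (∀ i, 0 < r' i) → ∀ i, ∀ s, 0 < s →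
      fourCoef φ y M k (Function.update r' i s) / (whitHeight Φ α (Function.update r' i s) : ℂ) =
        fourCoef φ y M k r' / (whitHeight Φ α r' : ℂ) := by
    intro r' h' i s hs
    have hpos : ∀ j, 0 < Function.update r' i s j := fun j => by
      rcases eq_or_ne j i with rfl | h <;> simp [*]
    have key := radial_unique (Φ.emb i α) (by simpa using hα0)
      (fun x => fourCoef φ y M k (Function.update r' i x))
      (fun b x hb hx => by
        have hx' : 0 < Function.update r' i x i := by simpa using hx
        have h := fourCoef_eigen hU hφ hM k (Function.update r' i x) i hb hx'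
        simpa only [Function.update_idem, Function.update_self] using h)
      (h' i) hs
    simp only [Function.update_eq_self] at key
    set f : ι → ℝ → ℝ := fun j x => x * Theta.besselK0 (4 * π * ‖Φ.emb j α‖ * x)
    have hw : ∀ q : ι → ℝ, whitHeight Φ α q = f i (q i) * ∏ j ∈ Finset.univ.erase i, f j (q j) :=
      fun q => (Finset.mul_prod_erase _ (fun j => f j (q j)) (Finset.mem_univ i)).symm
    have hrest : ∏ j ∈ Finset.univ.erase i, f j (Function.update r' i s j) =
        ∏ j ∈ Finset.univ.erase i, f j (r' j) :=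
      Finset.prod_congr rfl fun j hj => by rw [Function.update_of_ne (Finset.ne_of_mem_erase hj)]
    rw [div_eq_div_iff (hne _ hpos) (hne _ h'), hw r', hw (Function.update r' i s), hrest,
      Function.update_self]
    simp only [f, Complex.ofReal_mul] at key ⊢
    linear_combination (-((∏ j ∈ Finset.univ.erase i, f j (r' j) : ℝ) : ℂ)) * key
  have ind : ∀ S : Finset ι,
      fourCoef φ y M k (fun i => if i ∈ S then r i else 1) /
        (whitHeight Φ α (fun i => if i ∈ S then r i else 1) : ℂ) =
      fourCoef φ y M k (fun _ => 1) / (whitHeight Φ α (fun _ => 1) : ℂ) := by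
    intro S
    induction S using Finset.induction_on with
    | empty => simp
    | @insert i S hi ih =>
      rw [← ih]
      have e : (fun j => if j ∈ insert i S then r j else (1 : ℝ)) =
          Function.update (fun j => if j ∈ S then r j else 1) i (r i) := by
        funext j
        rcases eq_or_ne j i with rfl | h
        · simp
        · simp [h, Function.update_of_ne h]
      rw [e]
      exact step _ (fun j => by split_ifs <;> simp [hr]) i _ (hr i)
  have := ind Finset.univ
  simp only [Finset.mem_univ, if_true] at this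
  rw [← this, div_mul_cancel₀ _ (hne r hr)]

/-- The constant term vanishes. -/
theorem fourCoef_zero (hφ : LT.IsCuspEigen φ) (hM : IsPeriod φ y M) {r : ι → ℝ}
    (hr : ∀ i, 0 < r i) : fourCoef φ y M 0 r = 0 := by
  obtain ⟨C, hC⟩ := hφ.bounded
  have hper : ∀ (z : ι → ℂ) (n : LatIdx K → ℤ),
      φ (Space.mk (hpt (z + latPt Φ M (Poisson.intVec n)) r) y) = φ (Space.mk (hpt z r) y) := by
    intro z n
    obtain ⟨t, rfl⟩ := latPt_surjective Φ hM.1 z
    rw [← latPt_add]
    exact hM.2 r t n
  have h1 := tendsto_average_periodic (Φ := Φ) hM.1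
    (f := fun z => φ (Space.mk (hpt z r) y)) ((hφ.continuous y).comp (continuous_hpt_z r))
    (fun z => hC _) hper
  have h2 := hφ.cuspidal y r hr
  have e : ∀ z : ι → ℂ, hpt z r = fun i => (⟨z i, r i, hr i⟩ : HSpace) := fun z =>
    funext fun i => HSpace.ext rfl (by simp [hpt, hr])
  simp only [e] at h1
  have h := tendsto_nhds_unique h1 h2
  rw [fourCoef, WTorus.boxCoef, ← h]
  refine setIntegral_congr_fun Poisson.measurableSet_unitBox fun t _ => ?_
  simp [latFun, e]

end Fermat.Agent.LT.Adelic

end
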