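import Fermat.Agent.LT.Whittaker.Coefficient
import Fermat.Agent.LT.RankinSelberg.Parseval

/-!
# Existence and uniqueness of Whittaker expansions
-/

set_option autoImplicit false

noncomputable section

namespace Fermat.Agent.LT.Adelic

open NumberField MeasureTheory Filter
open scoped Real Topology

theorem besselK0_two_mul_le {x : ℝ} (hx : 0 < x) :
    Theta.besselK0 (2 * x) ≤ Real.exp (-x) * Theta.besselK0 x := by
  rw [Theta.besselK0, Theta.besselK0, ← integral_const_mul]
  refine setIntegral_mono_on (Theta.integrable_exp_neg_mul_cosh (by linarith)).integrableOn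
    ((Theta.integrable_exp_neg_mul_cosh hx).integrableOn.const_mul _) measurableSet_Ioi fun t _ => ?_
  rw [← Real.exp_add]
  exact Real.exp_le_exp.mpr (by nlinarith [Real.one_le_cosh t])

theorem summable_exp_neg_mul_norm (d : Type*) [Fintype d] {c : ℝ} (hc : 0 < c) :
    Summable fun n : d → ℤ => Real.exp (-(c * ‖Poisson.intVec n‖)) := by
  set N := Fintype.card d + 1
  set D := max 1 ((N : ℝ) / c)
  have hN : (0 : ℝ) < N := by positivity
  refine Summable.of_nonneg_of_le (fun n => (Real.exp_pos _).le) (fun n => ?_)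
    ((Poisson.summable_one_add_norm_rpow (d := d) (b := (N : ℝ)) (by simp [N])).mul_left (D ^ N))
  set x := ‖Poisson.intVec n‖
  have hx : 0 ≤ x := norm_nonneg _
  have h1 : 1 + x ≤ D * Real.exp (c * x / N) := by
    refine le_trans ?_ (mul_le_mul_of_nonneg_left (Real.add_one_le_exp _) (by positivity))
    have h2 : (N : ℝ) / c * (c * x / N) = x := by field_simp
    nlinarith [le_max_left (1 : ℝ) ((N : ℝ) / c), le_max_right (1 : ℝ) ((N : ℝ) / c),
      show (0 : ℝ) ≤ c * x / N by positivity]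
  rw [Real.rpow_neg (by positivity), Real.rpow_natCast, Real.exp_neg, ← div_eq_mul_inv,
    le_div_iff₀ (by positivity), inv_mul_le_iff₀ (Real.exp_pos _)]
  calc (1 + x) ^ N ≤ (D * Real.exp (c * x / N)) ^ N := pow_le_pow_left₀ (by positivity) h1 N
    _ = Real.exp (c * x) * D ^ N := by
      rw [mul_pow, ← Real.exp_nat_mul, mul_comm]; congr 2; field_simp

variable {K : Type*} [Field K] [NumberField K] {ι : Type*} [Fintype ι]
  {Φ : Frame K ι} {U : Subgroup (GfK K)} {φ : Space Φ U → ℂ} {y : Yf U}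

/-- A bound by all heights gives exponential decay at every height. -/
theorem norm_mul_whitHeight_le {α : K} {B C : ℝ} (hB : 0 ≤ B)
    (h : ∀ r : ι → ℝ, (∀ i, 0 < r i) → B * whitHeight Φ α r ≤ C) (hα : α ≠ 0) {r : ι → ℝ}
    (hr : ∀ i, 0 < r i) {ε : ℝ} (hε : ∀ i, ε ≤ r i) :
    B * whitHeight Φ α r ≤
      2 ^ Fintype.card ι * C * Real.exp (-(2 * π * ε * ∑ i, ‖Φ.emb i α‖)) := by
  set r' : ι → ℝ := fun i => r i / 2
  have hr' : ∀ i, 0 < r' i := fun i => half_pos (hr i)
  have hfac : whitHeight Φ α r ≤ whitHeight Φ α r' *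
      (2 ^ Fintype.card ι * Real.exp (-(2 * π * ε * ∑ i, ‖Φ.emb i α‖))) := by
    have hprod : (2 : ℝ) ^ Fintype.card ι * Real.exp (-(2 * π * ε * ∑ i, ‖Φ.emb i α‖)) =
        ∏ i : ι, 2 * Real.exp (-(2 * π * ε * ‖Φ.emb i α‖)) := by
      rw [Finset.prod_mul_distrib, Finset.prod_const, Finset.card_univ, ← Real.exp_sum,
        Finset.mul_sum, Finset.sum_neg_distrib]
    rw [hprod, whitHeight, whitHeight, ← Finset.prod_mul_distrib]
    refine Finset.prod_le_prod (fun i _ => mul_nonneg (hr i).le (Theta.besselK0_nonneg _))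
      fun i _ => ?_
    have ha : 0 < ‖Φ.emb i α‖ := norm_pos_iff.mpr (by simpa using hα)
    set x := 4 * π * ‖Φ.emb i α‖ * r' i
    have hx : 0 < x := by have := hr' i; positivity
    rw [show 4 * π * ‖Φ.emb i α‖ * r i = 2 * x by simp only [x, r']; ring]
    calc r i * Theta.besselK0 (2 * x) ≤ r i * (Real.exp (-x) * Theta.besselK0 x) :=
          mul_le_mul_of_nonneg_left (besselK0_two_mul_le hx) (hr i).le
      _ ≤ r i * (Real.exp (-(2 * π * ε * ‖Φ.emb i α‖)) * Theta.besselK0 x) := by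
          refine mul_le_mul_of_nonneg_left (mul_le_mul_of_nonneg_right (Real.exp_le_exp.mpr ?_)
            (Theta.besselK0_nonneg _)) (hr i).le
          simp only [x, r']
          nlinarith [mul_le_mul_of_nonneg_left (hε i) (show 0 ≤ 2 * π * ‖Φ.emb i α‖ by positivity)]
      _ = r' i * Theta.besselK0 x * (2 * Real.exp (-(2 * π * ε * ‖Φ.emb i α‖))) := by
          simp only [r']; ring
  refine (mul_le_mul_of_nonneg_left hfac hB).trans ?_
  rw [← mul_assoc, mul_comm (2 ^ Fintype.card ι) C, mul_assoc C]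
  exact mul_le_mul_of_nonneg_right (h r' hr') (by positivity)

theorem whit_apply_latPt {M : ℕ} (hM : M ≠ 0) (k : LatIdx K → ℤ) (t : LatIdx K → ℝ) {r : ι → ℝ}
    (hr : ∀ i, 0 < r i) :
    whit Φ (freqOf M k) (hpt (latPt Φ M t) r) =
      (whitHeight Φ (freqOf M k) r : ℂ) * Poisson.eC (∑ j, (k j : ℝ) * t j) := by
  rw [whit, hpt_r hr, ← whitPhase_latPt Φ hM]
  rfl

/-- Uniqueness. -/
theorem isWhittakerAt_unique {c c' : K → ℂ} (h : IsWhittakerAt φ y c) (h' : IsWhittakerAt φ y c') :
    c = c' := by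
  obtain ⟨M₁, hM₁, hs₁⟩ := h.support
  obtain ⟨M₂, hM₂, hs₂⟩ := h'.support
  set M := M₁ * M₂
  have hM : M ≠ 0 := mul_ne_zero hM₁ hM₂
  set e := c - c' with he
  have hsupp : ∀ α, e α ≠ 0 → α ∈ Set.range (freqOf (K := K) M) := by
    intro α hα
    obtain ⟨k, hk⟩ := exists_eq_freqOf hM (α := α) (by
      rcases eq_or_ne (c α) 0 with h0 | h0
      · have h1 : c' α ≠ 0 := fun h1 => hα (by simp [he, h0, h1])
        have hi : IsIntegral ℤ ((M₁ : K) * ((M₂ : K) * α)) :=
          (map_natCast (algebraMap ℤ K) M₁ ▸ isIntegral_algebraMap (x := (M₁ : ℤ))).mul (hs₂ α h1)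
        simpa [M, mul_assoc] using hi
      · have hi : IsIntegral ℤ ((M₂ : K) * ((M₁ : K) * α)) :=
          (map_natCast (algebraMap ℤ K) M₂ ▸ isIntegral_algebraMap (x := (M₂ : ℤ))).mul (hs₁ α h0)
        simpa [M, mul_assoc, mul_comm (M₁ : K), mul_left_comm] using hi)
    exact ⟨k, hk.symm⟩
  set r₀ : ι → ℝ := fun _ => 1
  have hr₀ : ∀ i, 0 < r₀ i := fun _ => one_pos
  have hzero : ∀ t : LatIdx K → ℝ, HasSum (fun k => e (freqOf M k) * (whitHeight Φ (freqOf M k) r₀ : ℂ) *
      Poisson.eC (∑ j, (k j : ℝ) * t j)) 0 := by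
    intro t
    have hd := (h.hasSum (hpt (latPt Φ M t) r₀)).sub (h'.hasSum (hpt (latPt Φ M t) r₀))
    rw [sub_self] at hd
    simp only [← sub_mul] at hd
    rw [← (freqOf_injective hM).hasSum_iff (f := fun α => (c α - c' α) * _) ?_] at hd
    · refine hd.congr_fun fun k => ?_
      simp only [Function.comp_apply, whit_apply_latPt hM _ _ hr₀, he, Pi.sub_apply, mul_assoc]
    · intro α hα
      have : e α = 0 := by_contra fun h0 => hα (hsupp α h0)
      rw [show c α - c' α = 0 from this, zero_mul]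
  have hsum : Summable fun k => ‖e (freqOf M k) * (whitHeight Φ (freqOf M k) r₀ : ℂ)‖ := by
    refine (summable_norm_iff.mpr (hzero 0).summable).congr fun k => ?_
    simp [norm_eC]
  have hvan : ∀ k, e (freqOf M k) * (whitHeight Φ (freqOf M k) r₀ : ℂ) = 0 := by
    intro k
    have := RankinSelberg.sum_sq_le_of_bounded (d := LatIdx K) (k := fun k : LatIdx K → ℤ => k)
      Function.injective_id hsum (M := 0) le_rfl (fun t => le_of_eq (by
        rw [norm_eq_zero, ← (hzero t).tsum_eq]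
        refine tsum_congr fun k => ?_
        congr 1
        rw [Poisson.eC]
        congr 1
        push_cast
        rw [Finset.mul_sum, Finset.mul_sum]
        refine Finset.sum_congr rfl fun j _ => ?_
        ring)) {k}
    simpa using this
  funext α
  by_contra hne
  have hα : e α ≠ 0 := sub_ne_zero.mpr hne
  have hα0 : α ≠ 0 := fun h0 => hα (by simp [he, h0, h.zero, h'.zero])
  obtain ⟨k, rfl⟩ := hsupp α hα
  exact hα ((mul_eq_zero.mp (hvan k)).resolve_right
    (Complex.ofReal_ne_zero.mpr (whitHeight_pos hα0 hr₀).ne'))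

variable [DecidableEq ι]

/-- Existence, with the uniform bound. -/
theorem exists_isWhittakerAt (hU : IsLevel U) (hφ : LT.IsCuspEigen φ) {C : ℝ}
    (hC : ∀ x, ‖φ x‖ ≤ C) (y : Yf U) :
    ∃ c, IsWhittakerAt φ y c ∧
      ∀ (α : K) (r : ι → ℝ), (∀ i, 0 < r i) → ‖c α‖ * whitHeight Φ α r ≤ C := by
  obtain ⟨M, hM⟩ := exists_isPeriod hU hφ.invariant y
  set r₀ : ι → ℝ := fun _ => 1
  set b : (LatIdx K → ℤ) → ℂ := fun k => if k = 0 then 0 else
    fourCoef φ y M k r₀ / (whitHeight Φ (freqOf M k) r₀ : ℂ) with hb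
  have hC0 : 0 ≤ C := (norm_nonneg _).trans (hC (Space.mk (fun _ => HSpace.base) y))
  have hcoef : ∀ k (r : ι → ℝ), (∀ i, 0 < r i) →
      fourCoef φ y M k r = b k * (whitHeight Φ (freqOf M k) r : ℂ) := by
    intro k r hr
    rcases eq_or_ne k 0 with rfl | hk
    · simp [hb, fourCoef_zero hφ hM hr]
    · rw [fourCoef_eq hU hφ hM hk hr]; simp [hb, hk, r₀]
  have hbd : ∀ k (r : ι → ℝ), (∀ i, 0 < r i) → ‖b k‖ * whitHeight Φ (freqOf M k) r ≤ C := by
    intro k r hr
    have h1 := norm_fourCoef_le (Φ := Φ) (U := U) (y := y) (M := M) hC k r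
    rwa [hcoef k r hr, norm_mul, Complex.norm_real,
      Real.norm_of_nonneg (whitHeight_nonneg _ fun i => (hr i).le)] at h1
  have hsum : ∀ r : ι → ℝ, (∀ i, 0 < r i) →
      Summable fun k => ‖b k‖ * whitHeight Φ (freqOf M k) r := by
    intro r hr
    obtain ⟨B, hB0, hB⟩ := exists_abs_le_sum_norm_freqOf Φ hM.1
    set ε : ℝ := (1 + ∑ i, (r i)⁻¹)⁻¹
    have hε0 : 0 < ε := inv_pos.mpr (add_pos_of_pos_of_nonneg one_pos
      (Finset.sum_nonneg fun i _ => (inv_pos.mpr (hr i)).le))
    have hεle : ∀ i, ε ≤ r i := fun i => by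
      refine inv_le_of_inv_le₀ (hr i) ?_
      linarith [Finset.single_le_sum (f := fun i => (r i)⁻¹)
        (fun i _ => (inv_pos.mpr (hr i)).le) (Finset.mem_univ i)]
    refine Summable.of_nonneg_of_le
      (fun k => mul_nonneg (norm_nonneg _) (whitHeight_nonneg _ fun i => (hr i).le)) (fun k => ?_)
      ((summable_exp_neg_mul_norm (LatIdx K) (c := 2 * π * ε / B) (by positivity)).mul_left
        (2 ^ Fintype.card ι * C))
    rcases eq_or_ne k 0 with rfl | hk
    · simp only [hb, if_true, norm_zero, zero_mul]; positivity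
    have hα : freqOf (K := K) M k ≠ 0 := by
      rw [← freqOf_zero (K := K) M]; exact (freqOf_injective hM.1).ne hk
    refine (norm_mul_whitHeight_le (norm_nonneg _) (hbd k) hα hr hεle).trans ?_
    refine mul_le_mul_of_nonneg_left (Real.exp_le_exp.mpr (neg_le_neg ?_)) (by positivity)
    have hk' : ‖Poisson.intVec k‖ ≤ B * ∑ i, ‖Φ.emb i (freqOf M k)‖ :=
      (pi_norm_le_iff_of_nonneg (by positivity)).mpr fun j => by
        rw [Poisson.intVec_apply, Real.norm_eq_abs]; exact hB k j
    rw [div_mul_eq_mul_div, div_le_iff₀ hB0, mul_assoc _ _ B, mul_comm _ B]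
    exact mul_le_mul_of_nonneg_left hk' (by positivity)
  refine ⟨Function.extend (freqOf M) b 0, ⟨?_, ?_, fun τ => ?_⟩, fun α r hr => ?_⟩
  · rw [← freqOf_zero (K := K) M, (freqOf_injective hM.1).extend_apply]; simp [hb]
  · obtain ⟨N, hN, hNk⟩ := exists_freqOf_integral (K := K) M hM.1
    refine ⟨N, hN, fun α hα => ?_⟩
    by_cases h : ∃ k, freqOf M k = α
    · obtain ⟨k, rfl⟩ := h; exact hNk k
    · exact absurd (Function.extend_apply' b (0 : K → ℂ) α h) hα
  · set r : ι → ℝ := fun i => (τ i).r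
    have hr : ∀ i, 0 < r i := fun i => (τ i).r_pos
    obtain ⟨t, ht⟩ := latPt_surjective Φ hM.1 (fun i => (τ i).z)
    have hτ : τ = hpt (latPt Φ M t) r := by rw [ht]; exact (hpt_self τ).symm
    have hF := WTorus.hasSum_boxCoef (continuous_latFun (y := y) (M := M) hφ r) (hM.2 r)
      (Summable.of_norm_bounded (hsum r hr) fun k => by
        show ‖fourCoef φ y M k r‖ ≤ _
        rw [hcoef k r hr, norm_mul, Complex.norm_real,
          Real.norm_of_nonneg (whitHeight_nonneg _ fun i => (hr i).le)]) t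
    rw [← (freqOf_injective hM.1).hasSum_iff]
    · rw [hτ]
      refine hF.congr_fun fun k => ?_
      show Function.extend (freqOf M) b 0 (freqOf M k) *
        whit Φ (freqOf M k) (hpt (latPt Φ M t) r) = fourCoef φ y M k r * _
      rw [(freqOf_injective hM.1).extend_apply, hcoef k r hr, whit_apply_latPt hM.1 _ _ hr]
      ring
    · intro α hα
      rw [Function.extend_apply' b (0 : K → ℂ) α (by simpa [Set.mem_range] using hα)]
      simp
  · by_cases h : ∃ k, freqOf M k = α
    · obtain ⟨k, rfl⟩ := h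
      rw [(freqOf_injective hM.1).extend_apply]
      exact hbd k r hr
    · rw [Function.extend_apply' b (0 : K → ℂ) α h]
      simpa using hC0

end Fermat.Agent.LT.Adelic

end
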