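import Fermat.Agent.LT.Poisson.Lattice

/-!
# Continuous periodic functions on `ℝ^d`
-/

set_option autoImplicit false

noncomputable section

namespace Fermat.Agent.LT.Adelic.WTorus

open MeasureTheory UnitAddTorus
open Poisson (toTorus intVec unitBox isOpenQuotientMap_toTorus toTorus_eq_iff eC)

attribute [local instance] instMeasureSpaceUnitAddCircle

local instance isAddHaar_unitAddCircle :
    Measure.IsAddHaarMeasure (volume : Measure UnitAddCircle) :=
  inferInstanceAs (Measure.IsAddHaarMeasure AddCircle.haarAddCircle)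

local instance isProbability_unitAddCircle : IsProbabilityMeasure (volume : Measure UnitAddCircle) :=
  inferInstanceAs (IsProbabilityMeasure AddCircle.haarAddCircle)

variable {d : Type*} [Fintype d] {F : (d → ℝ) → ℂ}

/-- A periodic function as a function on the torus. -/
def torusLift (hc : Continuous F) (hp : ∀ x m, F (x + intVec m) = F x) : C(UnitAddTorus d, ℂ) where
  toFun t := F (Function.surjInv isOpenQuotientMap_toTorus.surjective t)
  continuous_toFun := by
    rw [← isOpenQuotientMap_toTorus.continuous_comp_iff]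
    refine hc.congr fun x => ?_
    obtain ⟨m, hm⟩ := toTorus_eq_iff.mp
      (Function.surjInv_eq isOpenQuotientMap_toTorus.surjective (toTorus x))
    rw [Function.comp_apply]
    conv_lhs => rw [hm]
    rw [hp]

theorem torusLift_apply (hc : Continuous F) (hp : ∀ x m, F (x + intVec m) = F x) (x : d → ℝ) :
    torusLift hc hp (toTorus x) = F x := by
  show F (Function.surjInv isOpenQuotientMap_toTorus.surjective (toTorus x)) = _
  obtain ⟨m, hm⟩ := toTorus_eq_iff.mp
    (Function.surjInv_eq isOpenQuotientMap_toTorus.surjective (toTorus x))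
  conv_rhs => rw [hm]
  rw [hp]

/-- The `k`-th coefficient over the unit box. -/
def boxCoef (F : (d → ℝ) → ℂ) (k : d → ℤ) : ℂ :=
  ∫ t in unitBox, eC (-(∑ j, (k j : ℝ) * t j)) * F t

theorem mFourierCoeff_torusLift (hc : Continuous F) (hp : ∀ x m, F (x + intVec m) = F x)
    (k : d → ℤ) : mFourierCoeff (torusLift hc hp) k = boxCoef F k := by
  rw [mFourierCoeff_eq_integral _ k (fun _ => 0)]
  refine setIntegral_congr_fun Poisson.measurableSet_unitBox fun t _ => ?_
  show mFourier (-k) (toTorus t) • torusLift hc hp (toTorus t) = _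
  rw [smul_eq_mul, torusLift_apply, Poisson.mFourier_toTorus]
  congr 2
  simp [Finset.sum_neg_distrib]

/-- Periodic functions integrate over the box independently of translations. -/
theorem setIntegral_unitBox_comp_add (hc : Continuous F) (hp : ∀ x m, F (x + intVec m) = F x)
    (s : d → ℝ) : ∫ t in unitBox, F (t + s) = ∫ t in unitBox, F t := by
  have h1 := integral_preimage (fun x => torusLift hc hp (x + toTorus s)) (fun _ : d => (0 : ℝ))
  have h2 := integral_preimage (fun x => torusLift hc hp x) (fun _ : d => (0 : ℝ))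
  have e : ∀ t : d → ℝ, toTorus t + toTorus s = toTorus (t + s) := fun t => by
    funext i; simp [toTorus]
  calc ∫ t in unitBox, F (t + s) = ∫ x : UnitAddTorus d, torusLift hc hp (x + toTorus s) := by
        rw [h1]
        refine setIntegral_congr_fun Poisson.measurableSet_unitBox fun t _ => ?_
        show F (t + s) = torusLift hc hp (toTorus t + toTorus s)
        rw [e, torusLift_apply]
    _ = ∫ x : UnitAddTorus d, torusLift hc hp x := integral_add_right_eq_self _ _
    _ = ∫ t in unitBox, F t := by
        rw [h2]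
        refine setIntegral_congr_fun Poisson.measurableSet_unitBox fun t _ => ?_
        exact torusLift_apply hc hp t

/-- Translation multiplies a coefficient by a character. -/
theorem boxCoef_comp_add (hc : Continuous F) (hp : ∀ x m, F (x + intVec m) = F x) (s : d → ℝ)
    (k : d → ℤ) :
    boxCoef (fun t => F (t + s)) k = eC (∑ j, (k j : ℝ) * s j) * boxCoef F k := by
  have hc' : Continuous fun t : d → ℝ => eC (-(∑ j, (k j : ℝ) * t j)) * F t := by
    unfold eC
    fun_prop
  have hp' : ∀ x m, eC (-(∑ j, (k j : ℝ) * (x + intVec m) j)) * F (x + intVec m) =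
      eC (-(∑ j, (k j : ℝ) * x j)) * F x := fun x m => by
    rw [hp]
    congr 1
    simp only [Pi.add_apply, Poisson.intVec_apply, mul_add, Finset.sum_add_distrib, neg_add,
      Poisson.eC_add]
    rw [show -∑ j, (k j : ℝ) * (m j : ℝ) = ((-∑ j, k j * m j : ℤ) : ℝ) by push_cast; rfl]
    rw [show eC (((-∑ j, k j * m j : ℤ)) : ℝ) = 1 from ?_, mul_one]
    rw [eC, ← Complex.exp_int_mul_two_pi_mul_I (-∑ j, k j * m j)]
    congr 1
    push_cast
    ring
  rw [boxCoef, boxCoef, ← setIntegral_unitBox_comp_add hc' hp' s, ← integral_const_mul]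
  refine setIntegral_congr_fun Poisson.measurableSet_unitBox fun t _ => ?_
  show eC (-∑ j, (k j : ℝ) * t j) * F (t + s) = _
  rw [← mul_assoc, ← Poisson.eC_add]
  congr 2
  simp only [Pi.add_apply, mul_add, Finset.sum_add_distrib]
  ring

theorem measure_unitBox : (volume : Measure (d → ℝ)) unitBox = 1 := by
  rw [show unitBox (d := d) = Set.pi Set.univ fun _ => Set.Ioc (0 : ℝ) (0 + 1) by
    ext x; simp [unitBox], volume_pi_pi]
  simp

/-- Pointwise Fourier inversion. -/
theorem hasSum_boxCoef (hc : Continuous F) (hp : ∀ x m, F (x + intVec m) = F x)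
    (hsum : Summable (boxCoef F)) (t : d → ℝ) :
    HasSum (fun k => boxCoef F k * eC (∑ j, (k j : ℝ) * t j)) (F t) := by
  have h := hasSum_mFourier_series_apply_of_summable (f := torusLift hc hp)
    (hsum.congr fun k => (mFourierCoeff_torusLift hc hp k).symm) (toTorus t)
  simpa only [mFourierCoeff_torusLift, torusLift_apply, Poisson.mFourier_toTorus, smul_eq_mul]
    using h

theorem norm_boxCoef_le {C : ℝ} (hC : ∀ t, ‖F t‖ ≤ C) (k : d → ℤ) : ‖boxCoef F k‖ ≤ C := by
  refine (norm_setIntegral_le_of_norm_le_const (C := C)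
    (by rw [measure_unitBox]; exact ENNReal.one_lt_top) fun t _ => ?_).trans ?_
  · rw [norm_mul, Poisson.eC, show (2 : ℂ) * Real.pi * Complex.I *
      ((-(∑ j, (k j : ℝ) * t j) : ℝ) : ℂ) =
        ((2 * Real.pi * -(∑ j, (k j : ℝ) * t j) : ℝ) : ℂ) * Complex.I by push_cast; ring,
      Complex.norm_exp_ofReal_mul_I, one_mul]
    exact hC t
  · rw [Measure.real, measure_unitBox]; simp

end Fermat.Agent.LT.Adelic.WTorus

end
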